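import Fermat.Agent.TW.PowerSurj
import Fermat.Agent.S53.TangentGlue
import Fermat.Agent.S53.Burnside

/-!
# S56, piece TW-tan: from a bound for the deformations to `k[ε]` to `𝒪⟦X₁..X_r⟧ ↠ R`

`DQ : DeformationRingData 𝒪 ρbar 𝒟`.  If `𝒟` passes to the base change of `DQ.ρ` along every
SURJECTIVE local `𝒪`-algebra map `DQ.R → k[ε]` (`TwTanBC`), and every family of pairwise
inequivalent deformations of `ρbar` to `k[ε]` of type `𝒟` has at most `|k| ^ r` members
(`TwTanCard`), and `|k| > 2`, then `DQ.R` is a quotient of `𝒪⟦X₁, …, X_r⟧`.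

Proof: a nonzero functional `ℓ` on the relative cotangent space gives a surjective tangent vector
`u_ℓ : DQ.R → k[ε]`; the base changes of `DQ.ρ` along the `u_ℓ` are pairwise inequivalent by the
uniqueness part of the universal property; so `|k|^d - 1 ≤ |k|^r`, hence `d ≤ r`, and TW-alg
(`psj_deformationRing_of_finrank_le`) applies.
-/

set_option autoImplicit false

namespace Fermat.Agent.TW

open IsLocalRing Fermat.Agent.S53

section Residual

variable {𝒪 : Type} [CommRing 𝒪] [IsLocalRing 𝒪]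
variable {ρbar : ResidualGaloisRep (ResidueField 𝒪)}
variable {A B : Type} [CommRing A] [IsLocalRing A] [Algebra 𝒪 A]
  [CommRing B] [IsLocalRing B] [Algebra 𝒪 B]

/-- The residual representation of a base change of a deformation of `ρbar` is again `ρbar`
(for any identification `ι` of the residue fields). -/
theorem twtan_residual_baseChange (D : RigidDatum 𝒪 ρbar)
    (ιA : ResidueField 𝒪 →+* ResidueField A)
    (hιA : ∀ x : 𝒪, ιA (residue 𝒪 x) = residue A (algebraMap 𝒪 A x))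
    (ιB : ResidueField 𝒪 →+* ResidueField B)
    (hιB : ∀ x : 𝒪, ιB (residue 𝒪 x) = residue B (algebraMap 𝒪 B x))
    (φ : A →ₐ[𝒪] B) (hφ : IsLocalHom (φ : A →+* B)) (ρ : GaloisRepAdic A)
    (h : ρ.residual.IsEquiv (ρbar.baseChangeAlong ιA)) :
    (ρ.baseChangeAlong (φ : A →+* B) hφ).residual.IsEquiv (ρbar.baseChangeAlong ιB) := by
  obtain ⟨r, hr, hfr, ⟨e⟩⟩ := exists_framed_of_residual_isEquiv D ιA hιA ρ h
  have e1 := e.baseChangeAlong (φ : A →+* B) hφ
  have e2 := ofMatrixBaseChangeEquiv (φ : A →+* B) hφ r hr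
  have e3 := (e1.trans e2).residual
  obtain ⟨e4⟩ := residual_isEquiv_of_framed D ιB hιB (mapRep (φ : A →+* B) r)
    (hr.map (φ : A →+* B) hφ) (tangent_framed_mapRep hfr φ hφ)
  exact ⟨e3.trans e4⟩

end Residual

section Universal

variable {𝒪 : Type} [CommRing 𝒪] [IsDomain 𝒪] [IsDiscreteValuationRing 𝒪]
  [IsAdicComplete (maximalIdeal 𝒪) 𝒪] [Finite (ResidueField 𝒪)]
variable {ρbar : ResidualGaloisRep (ResidueField 𝒪)}
  {𝒟 : ∀ ⦃A : Type⦄ [CommRing A] [IsLocalRing A] [Algebra 𝒪 A], GaloisRepAdic A → Prop}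

/-- `𝒟` passes to the base change of the universal deformation along every surjective local
`𝒪`-algebra map `DQ.R → k[ε]`. -/
def TwTanBC (DQ : GaloisRep.DeformationRingData 𝒪 ρbar 𝒟) : Prop :=
  letI : Algebra 𝒪 (DualNumber (ResidueField 𝒪)) := dnAlg 𝒪
  ∀ (q : DQ.R →ₐ[𝒪] DualNumber (ResidueField 𝒪))
    (hq : IsLocalHom (q : DQ.R →+* DualNumber (ResidueField 𝒪))), Function.Surjective q →
    𝒟 (DQ.ρ.baseChangeAlong (q : DQ.R →+* DualNumber (ResidueField 𝒪)) hq)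

variable (𝒪 ρbar 𝒟) in
/-- Every family of pairwise inequivalent deformations of `ρbar` to `k[ε]` of type `𝒟` has at
most `N` members. -/
def TwTanCard (N : ℕ) : Prop :=
  ∀ (ι : Type) [Finite ι] (t : ι → TangentSub 𝒪 ρbar 𝒟),
    (∀ i j, (t i).1.IsEquiv (t j).1 → i = j) → Nat.card ι ≤ N

/-- `TwTanCard` from a bound for the number of classes of deformations to `k[ε]`. -/
theorem twTanCard_of_card_le (hfin : GaloisRep.TangentFinite 𝒪 ρbar 𝒟) (N : ℕ)
    (h : Nat.card (Quotient (tangentSetoid 𝒪 ρbar 𝒟)) ≤ N) : TwTanCard 𝒪 ρbar 𝒟 N := by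
  intro ι _ t ht
  have : Finite (Quotient (tangentSetoid 𝒪 ρbar 𝒟)) := (tangentFinite_iff 𝒪 ρbar 𝒟).1 hfin
  refine le_trans (Nat.card_le_card_of_injective
    (fun i => Quotient.mk (tangentSetoid 𝒪 ρbar 𝒟) (t i)) ?_) h
  intro i j hij
  exact ht i j (Quotient.exact hij)

/-- Two local `𝒪`-algebra maps `DQ.R → k[ε]` with equivalent base changes of the universal
deformation are equal, if the first base change is of type `𝒟`. -/
theorem twtan_eq_of_isEquiv (DQ : GaloisRep.DeformationRingData 𝒪 ρbar 𝒟)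
    (q q' : @AlgHom 𝒪 DQ.R (DualNumber (ResidueField 𝒪)) _ _ _ _ (dnAlg 𝒪))
    (hq : IsLocalHom (q : DQ.R →+* DualNumber (ResidueField 𝒪)))
    (hq' : IsLocalHom (q' : DQ.R →+* DualNumber (ResidueField 𝒪)))
    (h𝒟 : @𝒟 (DualNumber (ResidueField 𝒪)) _ _ (dnAlg 𝒪)
      (DQ.ρ.baseChangeAlong (q : DQ.R →+* DualNumber (ResidueField 𝒪)) hq))
    (he : (DQ.ρ.baseChangeAlong (q : DQ.R →+* DualNumber (ResidueField 𝒪)) hq).IsEquiv
      (DQ.ρ.baseChangeAlong (q' : DQ.R →+* DualNumber (ResidueField 𝒪)) hq')) : q = q' := by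
  letI : Algebra 𝒪 (DualNumber (ResidueField 𝒪)) := dnAlg 𝒪
  have hε : IsTestRing 𝒪 (DualNumber (ResidueField 𝒪)) := isTestRing_dualNumber
  have : Finite (DualNumber (ResidueField 𝒪)) := hε.finite
  have : IsLocalHom (algebraMap 𝒪 (DualNumber (ResidueField 𝒪))) := hε.isLocalHom
  obtain ⟨D⟩ := nonempty_rigidDatum (𝒪 := 𝒪) ρbar DQ.absIrr
  have hres : (DQ.ρ.baseChangeAlong (q : DQ.R →+* DualNumber (ResidueField 𝒪)) hq).residual.IsEquiv
      (ρbar.baseChangeAlong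
        (IsLocalRing.ResidueField.map (algebraMap 𝒪 (DualNumber (ResidueField 𝒪))))) :=
    twtan_residual_baseChange (A := DQ.R) (B := DualNumber (ResidueField 𝒪)) D
      (IsLocalRing.ResidueField.map (algebraMap 𝒪 DQ.R)) (fun _ => rfl)
      (IsLocalRing.ResidueField.map (algebraMap 𝒪 (DualNumber (ResidueField 𝒪)))) (fun _ => rfl)
      q hq DQ.ρ DQ.residual_isEquiv
  obtain ⟨φ, -, huniq⟩ := DQ.universal (DualNumber (ResidueField 𝒪)) hε.residue_surjective
    (DQ.ρ.baseChangeAlong (q : DQ.R →+* DualNumber (ResidueField 𝒪)) hq) h𝒟 hres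
  have h1 : q = φ := huniq q ⟨hq, ⟨GaloisRepAdic.Equiv.refl _⟩⟩
  have h2 : q' = φ := by
    obtain ⟨e⟩ := he
    exact huniq q' ⟨hq', ⟨e.symm⟩⟩
  exact h1.trans h2.symm

end Universal

section Surj

variable {𝒪 : Type} [CommRing 𝒪] [IsLocalRing 𝒪]
variable {A : Type} [CommRing A] [IsLocalRing A] [Algebra 𝒪 A]

/-- The tangent vector of a nonzero functional is surjective. -/
theorem twtan_tangentOfDual_surjective (hA : IsResAlg 𝒪 A)
    (ℓ : Module.Dual (ResidueField 𝒪) (TangentCot 𝒪 A)) (hℓ : ℓ ≠ 0) :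
    Function.Surjective (tangentOfDual hA ℓ).1 := by
  have hex : ∃ v, ℓ v ≠ 0 := by
    by_contra h
    exact hℓ (LinearMap.ext fun v => not_not.1 fun hv => h ⟨v, hv⟩)
  obtain ⟨v, hv⟩ := hex
  intro z
  -- an element of the maximal ideal with prescribed second component
  obtain ⟨b, hb⟩ := tangentMk_surjective (𝒪 := 𝒪) (A := A) ((z.snd / ℓ v) • v)
  obtain ⟨c', hc'⟩ := tangent_exists_sub_mem hA b
  obtain ⟨c, hc⟩ := IsLocalRing.residue_surjective (R := 𝒪) z.fst
  have hm1 : tangentMk 𝒪 A (b - algebraMap 𝒪 A c') = (z.snd / ℓ v) • v := by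
    rw [map_sub, tangentMk_algebraMap, sub_zero, hb]
  have hval : ∀ a : A, (tangentOfDual hA ℓ).1 a =
      TrivSqZeroExt.inl (tangentRes hA a) + TrivSqZeroExt.inr (ℓ (tangentMk 𝒪 A a)) :=
    fun _ => rfl
  refine ⟨algebraMap 𝒪 A c + (b - algebraMap 𝒪 A c'), ?_⟩
  rw [hval, map_add, map_add, tangentMk_algebraMap, zero_add, hm1, tangentRes_algebraMap,
    (tangentRes_eq_zero_iff hA _).2 hc', add_zero, hc, map_smul, smul_eq_mul,
    div_mul_cancel₀ _ hv]
  ext <;> simp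

end Surj

section Count

variable {𝒪 : Type} [CommRing 𝒪] [IsDomain 𝒪] [IsDiscreteValuationRing 𝒪]
  [IsAdicComplete (maximalIdeal 𝒪) 𝒪] [Finite (ResidueField 𝒪)]
variable {ρbar : ResidualGaloisRep (ResidueField 𝒪)}
  {𝒟 : ∀ ⦃A : Type⦄ [CommRing A] [IsLocalRing A] [Algebra 𝒪 A], GaloisRepAdic A → Prop}

/-- The deformation to `k[ε]` attached to a surjective tangent vector of the universal ring. -/
theorem twtan_exists_tangentSub (DQ : GaloisRep.DeformationRingData 𝒪 ρbar 𝒟)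
    (hbc : TwTanBC DQ) (u : TangentHom 𝒪 DQ.R) (hu : Function.Surjective u.1) :
    ∃ (t : TangentSub 𝒪 ρbar 𝒟)
      (hq : IsLocalHom ((tangentAlgHom u :
        @AlgHom 𝒪 DQ.R (DualNumber (ResidueField 𝒪)) _ _ _ _ (dnAlg 𝒪)) :
          DQ.R →+* DualNumber (ResidueField 𝒪))),
      t.1 = DQ.ρ.baseChangeAlong ((tangentAlgHom u :
        @AlgHom 𝒪 DQ.R (DualNumber (ResidueField 𝒪)) _ _ _ _ (dnAlg 𝒪)) :
          DQ.R →+* DualNumber (ResidueField 𝒪)) hq := by
  letI : Algebra 𝒪 (DualNumber (ResidueField 𝒪)) := dnAlg 𝒪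
  letI : Algebra (ResidueField 𝒪) (ResidueField (DualNumber (ResidueField 𝒪))) := dnResAlg 𝒪
  have hε : IsTestRing 𝒪 (DualNumber (ResidueField 𝒪)) := isTestRing_dualNumber
  have hεR : IsResAlg 𝒪 (DualNumber (ResidueField 𝒪)) := hε.isResAlg
  have hq : IsLocalHom ((tangentAlgHom u : DQ.R →ₐ[𝒪] DualNumber (ResidueField 𝒪)) :
      DQ.R →+* DualNumber (ResidueField 𝒪)) := hεR.isLocalHom_ringHom (tangentAlgHom u)
  obtain ⟨D⟩ := nonempty_rigidDatum (𝒪 := 𝒪) ρbar DQ.absIrr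
  have h1 : 𝒟 (DQ.ρ.baseChangeAlong ((tangentAlgHom u : DQ.R →ₐ[𝒪] DualNumber (ResidueField 𝒪)) :
      DQ.R →+* DualNumber (ResidueField 𝒪)) hq) := hbc (tangentAlgHom u) hq hu
  have h2 : (DQ.ρ.baseChangeAlong ((tangentAlgHom u : DQ.R →ₐ[𝒪] DualNumber (ResidueField 𝒪)) :
      DQ.R →+* DualNumber (ResidueField 𝒪)) hq).residual.IsEquiv
      (ρbar.baseChangeAlong ((IsLocalRing.residue (DualNumber (ResidueField 𝒪))).comp
        (algebraMap (ResidueField 𝒪) (DualNumber (ResidueField 𝒪))))) :=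
    twtan_residual_baseChange (A := DQ.R) (B := DualNumber (ResidueField 𝒪)) D
      (IsLocalRing.ResidueField.map (algebraMap 𝒪 DQ.R)) (fun _ => rfl)
      ((IsLocalRing.residue (DualNumber (ResidueField 𝒪))).comp
        (algebraMap (ResidueField 𝒪) (DualNumber (ResidueField 𝒪)))) (fun _ => rfl)
      (tangentAlgHom u) hq DQ.ρ DQ.residual_isEquiv
  exact ⟨⟨_, h1, h2⟩, hq, rfl⟩

/-- **TW-tan, dimension form.** -/
theorem twtan_finrank_le (DQ : GaloisRep.DeformationRingData 𝒪 ρbar 𝒟) (hbc : TwTanBC DQ)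
    (r : ℕ) (hk : 2 < Nat.card (ResidueField 𝒪))
    (hcard : TwTanCard 𝒪 ρbar 𝒟 (Nat.card (ResidueField 𝒪) ^ r)) :
    Module.finrank (ResidueField 𝒪) (TangentCot 𝒪 DQ.R) ≤ r := by
  classical
  have hres := DQ.residue_surjective
  have hA : IsResAlg 𝒪 DQ.R := psj_isResAlg hres
  haveI : Module.Finite (ResidueField 𝒪) (TangentCot 𝒪 DQ.R) := psj_finite_tangentCot hres
  haveI : Finite (Module.Dual (ResidueField 𝒪) (TangentCot 𝒪 DQ.R)) :=
    Module.finite_of_finite (ResidueField 𝒪)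
  -- the family indexed by the nonzero functionals
  have key := fun ℓ : {ℓ : Module.Dual (ResidueField 𝒪) (TangentCot 𝒪 DQ.R) // ℓ ≠ 0} =>
    twtan_exists_tangentSub DQ hbc (tangentOfDual hA ℓ.1)
      (twtan_tangentOfDual_surjective hA ℓ.1 ℓ.2)
  choose t hq ht using key
  have hinj : ∀ i j, (t i).1.IsEquiv (t j).1 → i = j := by
    intro i j hij
    rw [ht i, ht j] at hij
    have h𝒟 := (t i).2.1
    rw [ht i] at h𝒟
    have h1 := twtan_eq_of_isEquiv DQ _ _ (hq i) (hq j) h𝒟 hij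
    have h2 : tangentOfDual hA i.1 = tangentOfDual hA j.1 := by
      apply Subtype.ext
      apply RingHom.ext
      intro a
      have := congrArg (fun q : @AlgHom 𝒪 DQ.R (DualNumber (ResidueField 𝒪)) _ _ _ _ (dnAlg 𝒪) =>
        (q : DQ.R →+* DualNumber (ResidueField 𝒪)) a) h1
      exact this
    exact Subtype.ext (tangentOfDual_injective hA h2)
  have hle := hcard _ t hinj
  -- count
  have hcount : Nat.card (Module.Dual (ResidueField 𝒪) (TangentCot 𝒪 DQ.R)) ≤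
      Nat.card {ℓ : Module.Dual (ResidueField 𝒪) (TangentCot 𝒪 DQ.R) // ℓ ≠ 0} + 1 := by
    have h1 : Nat.card (Option {ℓ : Module.Dual (ResidueField 𝒪) (TangentCot 𝒪 DQ.R) // ℓ ≠ 0}) =
        Nat.card {ℓ : Module.Dual (ResidueField 𝒪) (TangentCot 𝒪 DQ.R) // ℓ ≠ 0} + 1 :=
      Finite.card_option
    rw [← h1]
    refine Nat.card_le_card_of_injective
      (fun ℓ : Module.Dual (ResidueField 𝒪) (TangentCot 𝒪 DQ.R) =>
        if h : ℓ = 0 then none else some ⟨ℓ, h⟩) ?_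
    intro a b hab
    by_cases ha : a = 0 <;> by_cases hb : b = 0
    · rw [ha, hb]
    · simp [ha, hb] at hab
    · simp [ha, hb] at hab
    · simpa [ha, hb] using hab
  have hdual : Nat.card (Module.Dual (ResidueField 𝒪) (TangentCot 𝒪 DQ.R)) =
      Nat.card (ResidueField 𝒪) ^ Module.finrank (ResidueField 𝒪) (TangentCot 𝒪 DQ.R) := by
    rw [Module.natCard_eq_pow_finrank (K := ResidueField 𝒪), Subspace.dual_finrank_eq]
  rw [hdual] at hcount
  by_contra hlt
  have hlt' : r + 1 ≤ Module.finrank (ResidueField 𝒪) (TangentCot 𝒪 DQ.R) := by omega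
  have h3 : Nat.card (ResidueField 𝒪) ^ (r + 1) ≤
      Nat.card (ResidueField 𝒪) ^ Module.finrank (ResidueField 𝒪) (TangentCot 𝒪 DQ.R) :=
    Nat.pow_le_pow_right (by omega) hlt'
  have h4 : 0 < Nat.card (ResidueField 𝒪) ^ r := Nat.pow_pos (by omega)
  have h5 : 3 * Nat.card (ResidueField 𝒪) ^ r ≤ Nat.card (ResidueField 𝒪) ^ (r + 1) := by
    rw [pow_succ, mul_comm]
    exact Nat.mul_le_mul_left _ hk
  omega

/-- **TW-tan.** If `𝒟` passes to the base changes of the universal deformation along surjections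
`DQ.R → k[ε]`, every family of pairwise inequivalent deformations of `ρbar` to `k[ε]` of type
`𝒟` has at most `|k| ^ r` members, and `|k| > 2`, then `DQ.R` is a quotient of `𝒪⟦X₁, …, X_r⟧`. -/
theorem twtan_exists_surjective (DQ : GaloisRep.DeformationRingData 𝒪 ρbar 𝒟) (hbc : TwTanBC DQ)
    (r : ℕ) (hk : 2 < Nat.card (ResidueField 𝒪))
    (hcard : TwTanCard 𝒪 ρbar 𝒟 (Nat.card (ResidueField 𝒪) ^ r)) :
    ∃ γ : MvPowerSeries (Fin r) 𝒪 →ₐ[𝒪] DQ.R, Function.Surjective γ :=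
  psj_deformationRing_of_finrank_le DQ r (twtan_finrank_le DQ hbc r hk hcard)

/-- For `p` odd the residue field has more than two elements. -/
theorem twtan_two_lt_card (p : ℕ) [hp : Fact p.Prime] (hp2 : p ≠ 2)
    (hp𝒪 : (p : 𝒪) ∈ maximalIdeal 𝒪) : 2 < Nat.card (ResidueField 𝒪) := by
  have h0 : ((p : ℕ) : ResidueField 𝒪) = 0 := by
    have h1 : residue 𝒪 (p : 𝒪) = 0 := (residue_eq_zero_iff _).2 hp𝒪
    rw [map_natCast] at h1
    exact h1
  haveI : CharP (ResidueField 𝒪) p := by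
    refine (CharP.charP_iff_prime_eq_zero hp.out).2 h0
  have hinj : Function.Injective (ZMod.castHom (dvd_refl p) (ResidueField 𝒪)) :=
    RingHom.injective _
  have hle := Nat.card_le_card_of_injective _ hinj
  rw [Nat.card_zmod] at hle
  have h3 : 3 ≤ p := by
    have := hp.out.two_le
    omega
  omega

/-- **TW-tan** for `p` odd. -/
theorem twtan_exists_surjective_of_odd (p : ℕ) [Fact p.Prime] (hp2 : p ≠ 2)
    (hp𝒪 : (p : 𝒪) ∈ maximalIdeal 𝒪) (DQ : GaloisRep.DeformationRingData 𝒪 ρbar 𝒟)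
    (hbc : TwTanBC DQ) (r : ℕ)
    (hcard : TwTanCard 𝒪 ρbar 𝒟 (Nat.card (ResidueField 𝒪) ^ r)) :
    ∃ γ : MvPowerSeries (Fin r) 𝒪 →ₐ[𝒪] DQ.R, Function.Surjective γ :=
  twtan_exists_surjective DQ hbc r (twtan_two_lt_card p hp2 hp𝒪) hcard

end Count

end Fermat.Agent.TW
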