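/-
S56 (Taylor–Wiles primes), project TW: top-level interface and assembly (TW-asm).
Owner: helper63 (captain).  Plan: NOTES/S56-plan.md.

* `twOrd`, `twFlat`        : the two deformation conditions of S56 (for a finite set `Q` of extra primes);
* `IsTWFamily`             : the conditions of S56 on the primes `qv : Fin r → ℕ`;
* `StmtCoreOrd/Flat`       : what the cohomological part (TW-S, TW-F, TW-E, TW-L, TW-W, TW-G) has to deliver: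
                             `∃ r, ∀ n, ∃ qv, IsTWFamily … ∧ TwTanCard … (|k| ^ r)`;
* `StmtBCOrd/Flat`         : TW-bc (base change along surjections `R → k[ε]`);
* `s56_of_core`            : the frozen statement S56 from the four statements above.
-/
import Fermat.Prelude.Def_GaloisRep_DeformationRingData
import Fermat.Prelude.Def_GaloisRep_LocalConditions
import Fermat.Prelude.Def_GaloisRep_StrictOrdinary
import Fermat.Prelude.Def_GaloisRep_Flat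
import Fermat.Prelude.Def_GaloisRep_Residual
import Fermat.Agent.TW.Tan

set_option autoImplicit false

namespace Fermat.Agent.TW

open Polynomial IsLocalRing

/-- The strict-ordinary deformation condition of S56 with the extra primes `Q`:
`det = χ`, strictly ordinary at `p`, unramified outside `Smin ∪ Q`, unipotent on inertia at the
primes `q ≠ p` of `Smin`. -/
def twOrd (𝒪 : Type) [CommRing 𝒪] (p : ℕ) (Smin Q : Finset ℕ) :
    ∀ ⦃A : Type⦄ [CommRing A] [IsLocalRing A] [Algebra 𝒪 A], GaloisRepAdic A → Prop :=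
  fun _A _ _ _ ρ => GaloisRep.strictOrdinaryCondition 𝒪 p (Smin ∪ Q) ρ ∧
    ∀ q ∈ Smin, q.Prime → q ≠ p → ρ.IsUnipotentOnInertiaAt q

/-- The flat deformation condition of S56 with the extra primes `Q`. -/
def twFlat (𝒪 : Type) [CommRing 𝒪] (p : ℕ) (Smin Q : Finset ℕ) :
    ∀ ⦃A : Type⦄ [CommRing A] [IsLocalRing A] [Algebra 𝒪 A], GaloisRepAdic A → Prop :=
  fun _A _ _ _ ρ => GaloisRep.flatCondition 𝒪 p (Smin ∪ Q) ρ ∧
    ∀ q ∈ Smin, q.Prime → q ≠ p → ρ.IsUnipotentOnInertiaAt q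

/-- The conditions of S56 on a family of Taylor–Wiles primes. -/
def IsTWFamily {k : Type} [Field k] (p : ℕ) (ρbar : ResidualGaloisRep k) (S : Finset ℕ)
    (n r : ℕ) (qv : Fin r → ℕ) : Prop :=
  Function.Injective qv ∧
    (∀ i, (qv i).Prime ∧ qv i ∉ S ∧ p ^ (n + 1) ∣ qv i - 1) ∧
    (∀ i, ∀ P : ValuationSubring (AlgebraicClosure ℚ), P.LiesOverPrime (qv i) →
      ∀ φ : AlgebraicClosure ℚ ≃ₐ[ℚ] AlgebraicClosure ℚ, P.IsFrobeniusAt φ (qv i) →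
        ∃ α β : k, α ≠ β ∧ LinearMap.charpoly (ρbar.ρ φ) = (X - C α) * (X - C β))

section Core

variable (𝒪 : Type) [CommRing 𝒪] [IsDomain 𝒪] [IsDiscreteValuationRing 𝒪]
  [IsAdicComplete (maximalIdeal 𝒪) 𝒪] [Finite (ResidueField 𝒪)]

/-- The hypotheses of S56 on `(p, ρbar, S, Smin)`. -/
structure TWHyp (p : ℕ) (ρbar : ResidualGaloisRep (ResidueField 𝒪)) (S Smin : Finset ℕ) :
    Prop where
  hp2 : p ≠ 2
  hp𝒪 : (p : 𝒪) ∈ maximalIdeal 𝒪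
  habs : ρbar.IsAbsolutelyIrreducible
  hdet : (GaloisRepAdic.ofResidualGaloisRep ρbar).DetIsCyclotomic p
  hsplit : ∀ σ : AlgebraicClosure ℚ ≃ₐ[ℚ] AlgebraicClosure ℚ,
    ∃ α β : ResidueField 𝒪, LinearMap.charpoly (ρbar.ρ σ) = (X - C α) * (X - C β)
  hTW : ∀ (K : Type) [Field K] [Algebra (ResidueField 𝒪) K]
    (G : Subgroup (AlgebraicClosure ℚ ≃ₐ[ℚ] AlgebraicClosure ℚ)), G.index = 2 →
    ∀ V : Submodule K (ρbar.baseChange K).V,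
      (∀ σ ∈ G, ∀ x ∈ V, (ρbar.baseChange K).ρ σ x ∈ V) → V = ⊥ ∨ V = ⊤
  hpSmin : p ∈ Smin
  hSmin : Smin ⊆ S
  hS : ∀ q ∈ S, q.Prime
  hmin : ∀ q : ℕ, q.Prime → q ≠ p → (q ∈ Smin ↔ ¬ ρbar.IsUnramifiedAt q)

/-- **Core statement, ordinary half**: the Taylor–Wiles primes together with the bound
`|k| ^ r` for the number of deformations to `k[ε]` of type `twOrd`. -/
def StmtCoreOrd : Prop :=
  ∀ (p : ℕ) [Fact p.Prime] (ρbar : ResidualGaloisRep (ResidueField 𝒪)) (S Smin : Finset ℕ),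
    TWHyp 𝒪 p ρbar S Smin →
    ∃ r : ℕ, ∀ n : ℕ, ∃ qv : Fin r → ℕ, IsTWFamily p ρbar S n r qv ∧
      TwTanCard 𝒪 ρbar (twOrd 𝒪 p Smin (Finset.univ.image qv)) (Nat.card (ResidueField 𝒪) ^ r)

/-- **Core statement, flat half.** -/
def StmtCoreFlat : Prop :=
  ∀ (p : ℕ) [Fact p.Prime] (ρbar : ResidualGaloisRep (ResidueField 𝒪)) (S Smin : Finset ℕ),
    TWHyp 𝒪 p ρbar S Smin →
    ∃ r : ℕ, ∀ n : ℕ, ∃ qv : Fin r → ℕ, IsTWFamily p ρbar S n r qv ∧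
      TwTanCard 𝒪 ρbar (twFlat 𝒪 p Smin (Finset.univ.image qv)) (Nat.card (ResidueField 𝒪) ^ r)

/-- **TW-bc, ordinary half**: `twOrd` is stable under base change along surjections `R → k[ε]`. -/
def StmtBCOrd : Prop :=
  ∀ (p : ℕ) [Fact p.Prime] (ρbar : ResidualGaloisRep (ResidueField 𝒪)) (Smin Q : Finset ℕ)
    (DQ : GaloisRep.DeformationRingData 𝒪 ρbar (twOrd 𝒪 p Smin Q)), TwTanBC DQ

/-- **TW-bc, flat half.** -/
def StmtBCFlat : Prop :=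
  ∀ (p : ℕ) [Fact p.Prime] (ρbar : ResidualGaloisRep (ResidueField 𝒪)) (Smin Q : Finset ℕ)
    (DQ : GaloisRep.DeformationRingData 𝒪 ρbar (twFlat 𝒪 p Smin Q)), TwTanBC DQ

end Core

section Assembly

variable {𝒪 : Type} [CommRing 𝒪] [IsDomain 𝒪] [IsDiscreteValuationRing 𝒪]
  [IsAdicComplete (maximalIdeal 𝒪) 𝒪] [Finite (ResidueField 𝒪)]

/-- One half of S56 from the core statement and base change. -/
theorem s56_half_of_core (p : ℕ) [Fact p.Prime] (hp2 : p ≠ 2) (hp𝒪 : (p : 𝒪) ∈ maximalIdeal 𝒪)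
    (ρbar : ResidualGaloisRep (ResidueField 𝒪)) (S : Finset ℕ)
    (𝒟 : Finset ℕ → ∀ ⦃A : Type⦄ [CommRing A] [IsLocalRing A] [Algebra 𝒪 A],
      GaloisRepAdic A → Prop)
    (hbc : ∀ (Q : Finset ℕ) (DQ : GaloisRep.DeformationRingData 𝒪 ρbar (𝒟 Q)), TwTanBC DQ)
    (hcore : ∃ r : ℕ, ∀ n : ℕ, ∃ qv : Fin r → ℕ, IsTWFamily p ρbar S n r qv ∧
      TwTanCard 𝒪 ρbar (𝒟 (Finset.univ.image qv)) (Nat.card (ResidueField 𝒪) ^ r)) :
    ∃ r : ℕ, ∀ n : ℕ, ∃ qv : Fin r → ℕ, Function.Injective qv ∧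
      (∀ i, (qv i).Prime ∧ qv i ∉ S ∧ p ^ (n + 1) ∣ qv i - 1) ∧
      (∀ i, ∀ P : ValuationSubring (AlgebraicClosure ℚ), P.LiesOverPrime (qv i) →
        ∀ φ : AlgebraicClosure ℚ ≃ₐ[ℚ] AlgebraicClosure ℚ, P.IsFrobeniusAt φ (qv i) →
          ∃ α β : ResidueField 𝒪, α ≠ β ∧
            LinearMap.charpoly (ρbar.ρ φ) = (X - C α) * (X - C β)) ∧
      ∀ DQ : GaloisRep.DeformationRingData 𝒪 ρbar (𝒟 (Finset.univ.image qv)),
        ∃ γ : MvPowerSeries (Fin r) 𝒪 →ₐ[𝒪] DQ.R, Function.Surjective γ := by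
  obtain ⟨r, hr⟩ := hcore
  refine ⟨r, fun n => ?_⟩
  obtain ⟨qv, ⟨h1, h2, h3⟩, hcard⟩ := hr n
  exact ⟨qv, h1, h2, h3, fun DQ =>
    twtan_exists_surjective_of_odd p hp2 hp𝒪 DQ (hbc _ DQ) r hcard⟩

/-- **TW-asm.** The frozen statement S56 from the two core statements and TW-bc. -/
theorem s56_of_core (hco : StmtCoreOrd 𝒪) (hcf : StmtCoreFlat 𝒪)
    (hbo : StmtBCOrd 𝒪) (hbf : StmtBCFlat 𝒪)
    (p : ℕ) [Fact p.Prime] (hp2 : p ≠ 2) (hp𝒪 : (p : 𝒪) ∈ maximalIdeal 𝒪)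
    (ρbar : ResidualGaloisRep (ResidueField 𝒪))
    (habs : ρbar.IsAbsolutelyIrreducible)
    (hdet : (GaloisRepAdic.ofResidualGaloisRep ρbar).DetIsCyclotomic p)
    (hsplit : ∀ σ : AlgebraicClosure ℚ ≃ₐ[ℚ] AlgebraicClosure ℚ,
      ∃ α β : ResidueField 𝒪, LinearMap.charpoly (ρbar.ρ σ) = (X - C α) * (X - C β))
    (hTW : ∀ (K : Type) [Field K] [Algebra (ResidueField 𝒪) K]
      (G : Subgroup (AlgebraicClosure ℚ ≃ₐ[ℚ] AlgebraicClosure ℚ)), G.index = 2 →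
      ∀ V : Submodule K (ρbar.baseChange K).V,
        (∀ σ ∈ G, ∀ x ∈ V, (ρbar.baseChange K).ρ σ x ∈ V) → V = ⊥ ∨ V = ⊤)
    (S Smin : Finset ℕ) (hpSmin : p ∈ Smin) (hSmin : Smin ⊆ S) (hS : ∀ q ∈ S, q.Prime)
    (hmin : ∀ q : ℕ, q.Prime → q ≠ p → (q ∈ Smin ↔ ¬ ρbar.IsUnramifiedAt q)) :
    (∃ r : ℕ, ∀ n : ℕ, ∃ qv : Fin r → ℕ, Function.Injective qv ∧
      (∀ i, (qv i).Prime ∧ qv i ∉ S ∧ p ^ (n + 1) ∣ qv i - 1) ∧
      (∀ i, ∀ P : ValuationSubring (AlgebraicClosure ℚ), P.LiesOverPrime (qv i) →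
        ∀ φ : AlgebraicClosure ℚ ≃ₐ[ℚ] AlgebraicClosure ℚ, P.IsFrobeniusAt φ (qv i) →
          ∃ α β : ResidueField 𝒪, α ≠ β ∧ LinearMap.charpoly (ρbar.ρ φ) = (X - C α) * (X - C β)) ∧
      ∀ DQ : GaloisRep.DeformationRingData 𝒪 ρbar (fun _A _ _ _ ρ =>
          GaloisRep.strictOrdinaryCondition 𝒪 p (Smin ∪ Finset.univ.image qv) ρ ∧
            ∀ q ∈ Smin, q.Prime → q ≠ p → ρ.IsUnipotentOnInertiaAt q),
        ∃ γ : MvPowerSeries (Fin r) 𝒪 →ₐ[𝒪] DQ.R, Function.Surjective γ) ∧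
    (∃ r : ℕ, ∀ n : ℕ, ∃ qv : Fin r → ℕ, Function.Injective qv ∧
      (∀ i, (qv i).Prime ∧ qv i ∉ S ∧ p ^ (n + 1) ∣ qv i - 1) ∧
      (∀ i, ∀ P : ValuationSubring (AlgebraicClosure ℚ), P.LiesOverPrime (qv i) →
        ∀ φ : AlgebraicClosure ℚ ≃ₐ[ℚ] AlgebraicClosure ℚ, P.IsFrobeniusAt φ (qv i) →
          ∃ α β : ResidueField 𝒪, α ≠ β ∧ LinearMap.charpoly (ρbar.ρ φ) = (X - C α) * (X - C β)) ∧
      ∀ DQ : GaloisRep.DeformationRingData 𝒪 ρbar (fun _A _ _ _ ρ =>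
          GaloisRep.flatCondition 𝒪 p (Smin ∪ Finset.univ.image qv) ρ ∧
            ∀ q ∈ Smin, q.Prime → q ≠ p → ρ.IsUnipotentOnInertiaAt q),
        ∃ γ : MvPowerSeries (Fin r) 𝒪 →ₐ[𝒪] DQ.R, Function.Surjective γ) := by
  have hyp : TWHyp 𝒪 p ρbar S Smin :=
    ⟨hp2, hp𝒪, habs, hdet, hsplit, hTW, hpSmin, hSmin, hS, hmin⟩
  exact ⟨s56_half_of_core p hp2 hp𝒪 ρbar S (twOrd 𝒪 p Smin) (fun Q DQ => hbo p ρbar Smin Q DQ)
      (hco p ρbar S Smin hyp),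
    s56_half_of_core p hp2 hp𝒪 ρbar S (twFlat 𝒪 p Smin) (fun Q DQ => hbf p ρbar Smin Q DQ)
      (hcf p ρbar S Smin hyp)⟩

end Assembly

end Fermat.Agent.TW
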