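import Fermat.Agent.TW.Tan
import Fermat.Prelude.Def_GaloisRep_LocalConditions
import Fermat.Prelude.Def_GaloisRep_StrictOrdinary
import Fermat.Prelude.Def_GaloisRep_Flat

/-!
# S56, piece TW-bc: the local conditions are stable under base change

* `DetIsCyclotomic`, `IsUnramifiedAt`, `IsUnipotentOnInertiaAt`, `IsStrictOrdinaryAt`,
  `IsOrdinaryAt` pass to the base change along ANY local homomorphism;
* `IsFlatAt` passes to the base change along a SURJECTIVE local homomorphism `φ : A → B`: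
  `(B ⊗ V) / J (B ⊗ V) ≅ V / φ⁻¹(J) V`, equivariantly.
* Hence `TwTanBC DQ` for the two conditions of S56.
-/

set_option autoImplicit false

namespace Fermat.Agent.TW

open IsLocalRing
open scoped TensorProduct

section Aux

variable {A B : Type} [CommRing A] [CommRing B] [Algebra A B]
variable {V : Type} [AddCommGroup V] [Module A V] [Module.Free A V] [Module.Finite A V]

theorem twbc_aux_charpoly (f : V →ₗ[A] V) (h : f.charpoly = (Polynomial.X - 1) ^ 2) :
    (f.baseChange B).charpoly = (Polynomial.X - 1) ^ 2 := by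
  rw [LinearMap.charpoly_baseChange, h]
  simp

theorem twbc_aux_det (f : V →ₗ[A] V) (a : ℕ) (m : ℕ)
    (h : LinearMap.det f - (a : A) ∈ Ideal.span {((m : ℕ) : A)}) :
    LinearMap.det (f.baseChange B) - (a : B) ∈ Ideal.span {((m : ℕ) : B)} := by
  rw [LinearMap.det_baseChange]
  obtain ⟨c, hc⟩ := Ideal.mem_span_singleton'.1 h
  refine Ideal.mem_span_singleton'.2 ⟨algebraMap A B c, ?_⟩
  have := congrArg (algebraMap A B) hc
  rw [map_mul, map_natCast, map_sub, map_natCast] at this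
  exact this

/-- `c ⊗ v ∈ B · (1 ⊗ b₀)` for `v ∈ A · b₀`. -/
theorem twbc_aux_tmul_mem {M : Type} [AddCommGroup M] [Module A M] (b₀ : M) (c : B) {v : M}
    (hv : v ∈ Submodule.span A {b₀}) :
    c ⊗ₜ[A] v ∈ Submodule.span B {(1 : B) ⊗ₜ[A] b₀} := by
  obtain ⟨a, rfl⟩ := Submodule.mem_span_singleton.1 hv
  refine Submodule.mem_span_singleton.2 ⟨c * algebraMap A B a, ?_⟩
  rw [TensorProduct.smul_tmul', smul_eq_mul, mul_one, TensorProduct.tmul_smul,
    TensorProduct.smul_tmul', Algebra.smul_def, mul_comm]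

/-- if `f - z` maps `M` into `A · b₀`, then `f_B - z` maps `B ⊗ M` into `B · (1 ⊗ b₀)`. -/
theorem twbc_aux_sub_mem {M : Type} [AddCommGroup M] [Module A M] (b₀ : M) (f : M →ₗ[A] M)
    (z : A) (h : ∀ v : M, f v - z • v ∈ Submodule.span A {b₀}) (w : B ⊗[A] M) :
    f.baseChange B w - algebraMap A B z • w ∈ Submodule.span B {(1 : B) ⊗ₜ[A] b₀} := by
  induction w using TensorProduct.induction_on with
  | zero => simp
  | tmul c v =>
    have h1 : f.baseChange B (c ⊗ₜ[A] v) - algebraMap A B z • (c ⊗ₜ[A] v) =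
        c ⊗ₜ[A] (f v - z • v) := by
      rw [LinearMap.baseChange_tmul, TensorProduct.tmul_sub, TensorProduct.tmul_smul,
        algebraMap_smul]
    rw [h1]
    exact twbc_aux_tmul_mem b₀ c (h v)
  | add x y hx hy =>
    have : f.baseChange B (x + y) - algebraMap A B z • (x + y) =
        (f.baseChange B x - algebraMap A B z • x) + (f.baseChange B y - algebraMap A B z • y) := by
      rw [map_add, smul_add]; abel
    rw [this]
    exact Submodule.add_mem _ hx hy

/-- if `f = x` on `A · b₀`, then `f_B = x` on `B · (1 ⊗ b₀)`. -/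
theorem twbc_aux_eq_smul {M : Type} [AddCommGroup M] [Module A M] (b₀ : M) (f : M →ₗ[A] M)
    (x : A) (h : ∀ v ∈ Submodule.span A {b₀}, f v = x • v) (w : B ⊗[A] M)
    (hw : w ∈ Submodule.span B {(1 : B) ⊗ₜ[A] b₀}) :
    f.baseChange B w = algebraMap A B x • w := by
  obtain ⟨c, rfl⟩ := Submodule.mem_span_singleton.1 hw
  rw [map_smul, LinearMap.baseChange_tmul, h b₀ (Submodule.mem_span_singleton_self b₀),
    TensorProduct.tmul_smul, smul_comm, algebraMap_smul]

/-- strict ordinarity, module form -/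
theorem twbc_aux_strict {G : Type} [Group G] {M : Type} [AddCommGroup M] [Module A M]
    (ρ : G →* Module.End A M) (D I : Set G) (cyc : G → ℕ → ℕ → Prop) (p : ℕ)
    (h : ∃ L : Submodule A M,
      (∃ b : Module.Basis (Fin 2) A M, L = Submodule.span A {b 0}) ∧
      (∀ σ ∈ D, ∀ v ∈ L, ρ σ v ∈ L) ∧
      (∀ σ ∈ I, ∀ v : M, ρ σ v - v ∈ L) ∧
      (∀ σ ∈ D, ∃ x z : A,
        (∀ w ∈ L, ρ σ w = x • w) ∧ (∀ v : M, ρ σ v - z • v ∈ L) ∧
        ∀ (n a : ℕ), cyc σ n a → x - (a : A) * z ∈ Ideal.span {((p ^ n : ℕ) : A)})) :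
    ∃ L : Submodule B (B ⊗[A] M),
      (∃ b : Module.Basis (Fin 2) B (B ⊗[A] M), L = Submodule.span B {b 0}) ∧
      (∀ σ ∈ D, ∀ v ∈ L, (ρ σ).baseChange B v ∈ L) ∧
      (∀ σ ∈ I, ∀ v : B ⊗[A] M, (ρ σ).baseChange B v - v ∈ L) ∧
      (∀ σ ∈ D, ∃ x z : B,
        (∀ w ∈ L, (ρ σ).baseChange B w = x • w) ∧
        (∀ v : B ⊗[A] M, (ρ σ).baseChange B v - z • v ∈ L) ∧
        ∀ (n a : ℕ), cyc σ n a → x - (a : B) * z ∈ Ideal.span {((p ^ n : ℕ) : B)}) := by
  obtain ⟨L, ⟨b, rfl⟩, hD, hI, hS⟩ := h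
  refine ⟨Submodule.span B {(1 : B) ⊗ₜ[A] b 0}, ⟨b.baseChange B, ?_⟩, ?_, ?_, ?_⟩
  · rw [Module.Basis.baseChange_apply]
  · intro σ hσ w hw
    obtain ⟨x, z, hx, -, -⟩ := hS σ hσ
    rw [twbc_aux_eq_smul (B := B) (b 0) (ρ σ) x hx w hw]
    exact Submodule.smul_mem _ _ hw
  · intro σ hσ w
    have := twbc_aux_sub_mem (B := B) (b 0) (ρ σ) 1
      (fun v => by rw [one_smul]; exact hI σ hσ v) w
    rw [map_one, one_smul] at this
    exact this
  · intro σ hσ
    obtain ⟨x, z, hx, hz, hxz⟩ := hS σ hσ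
    refine ⟨algebraMap A B x, algebraMap A B z, ?_, ?_, ?_⟩
    · intro w hw
      exact twbc_aux_eq_smul (B := B) (b 0) (ρ σ) x hx w hw
    · intro w
      exact twbc_aux_sub_mem (B := B) (b 0) (ρ σ) z hz w
    · intro n a ha
      obtain ⟨c, hc⟩ := Ideal.mem_span_singleton'.1 (hxz n a ha)
      refine Ideal.mem_span_singleton'.2 ⟨algebraMap A B c, ?_⟩
      have := congrArg (algebraMap A B) hc
      rw [map_mul, map_natCast, map_sub, map_mul, map_natCast] at this
      exact this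

/-- ordinarity, module form -/
theorem twbc_aux_ord {G : Type} [Group G] {M : Type} [AddCommGroup M] [Module A M]
    (ρ : G →* Module.End A M) (D I : Set G)
    (h : ∃ L : Submodule A M,
      (∃ b : Module.Basis (Fin 2) A M, L = Submodule.span A {b 0}) ∧
      (∀ σ ∈ D, ∀ v ∈ L, ρ σ v ∈ L) ∧
      (∀ σ ∈ I, ∀ v : M, ρ σ v - v ∈ L)) :
    ∃ L : Submodule B (B ⊗[A] M),
      (∃ b : Module.Basis (Fin 2) B (B ⊗[A] M), L = Submodule.span B {b 0}) ∧
      (∀ σ ∈ D, ∀ v ∈ L, (ρ σ).baseChange B v ∈ L) ∧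
      (∀ σ ∈ I, ∀ v : B ⊗[A] M, (ρ σ).baseChange B v - v ∈ L) := by
  obtain ⟨L, ⟨b, rfl⟩, hD, hI⟩ := h
  refine ⟨Submodule.span B {(1 : B) ⊗ₜ[A] b 0}, ⟨b.baseChange B, ?_⟩, ?_, ?_⟩
  · rw [Module.Basis.baseChange_apply]
  · intro σ hσ w hw
    obtain ⟨c, rfl⟩ := Submodule.mem_span_singleton.1 hw
    rw [map_smul, LinearMap.baseChange_tmul]
    exact Submodule.smul_mem _ _ (twbc_aux_tmul_mem (b 0) 1
      (hD σ hσ _ (Submodule.mem_span_singleton_self _)))
  · intro σ hσ w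
    have := twbc_aux_sub_mem (B := B) (b 0) (ρ σ) 1
      (fun v => by rw [one_smul]; exact hI σ hσ v) w
    rw [map_one, one_smul] at this
    exact this

end Aux

section Easy

variable {A B : Type} [CommRing A] [IsLocalRing A] [CommRing B] [IsLocalRing B]

theorem twbc_map_mem_maximalIdeal (φ : A →+* B) (hφ : IsLocalHom φ) {a : A}
    (ha : a ∈ maximalIdeal A) : φ a ∈ maximalIdeal B :=
  haveI := hφ
  map_nonunit φ a ha

theorem twbc_isUnramifiedAt (φ : A →+* B) (hφ : IsLocalHom φ) (ρ : GaloisRepAdic A) (q : ℕ)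
    (h : ρ.IsUnramifiedAt q) : (ρ.baseChangeAlong φ hφ).IsUnramifiedAt q := by
  intro P hP σ hσ
  have h1 := h P hP σ hσ
  have h2 : (ρ.baseChangeAlong φ hφ).ρ σ = (ρ.baseChangeAlong φ hφ).ρ 1 := by
    show (letI : Algebra A B := φ.toAlgebra; (ρ.ρ σ).baseChange B) =
      (letI : Algebra A B := φ.toAlgebra; (ρ.ρ 1).baseChange B)
    rw [h1, map_one]
  rw [h2, map_one]

theorem twbc_isUnipotentOnInertiaAt (φ : A →+* B) (hφ : IsLocalHom φ) (ρ : GaloisRepAdic A)
    (q : ℕ) (h : ρ.IsUnipotentOnInertiaAt q) :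
    (ρ.baseChangeAlong φ hφ).IsUnipotentOnInertiaAt q := by
  intro P hP σ hσ
  exact @twbc_aux_charpoly A B _ _ φ.toAlgebra ρ.V _ _ _ _ (ρ.ρ σ) (h P hP σ hσ)

theorem twbc_detIsCyclotomic (φ : A →+* B) (hφ : IsLocalHom φ) (ρ : GaloisRepAdic A) (p : ℕ)
    (h : ρ.DetIsCyclotomic p) : (ρ.baseChangeAlong φ hφ).DetIsCyclotomic p := by
  obtain ⟨h1, h2⟩ := h
  refine ⟨?_, ?_⟩
  · have := twbc_map_mem_maximalIdeal φ hφ h1
    rwa [map_natCast] at this
  · intro n σ a ha
    exact @twbc_aux_det A B _ _ φ.toAlgebra ρ.V _ _ _ _ (ρ.ρ σ) a (p ^ n) (h2 n σ a ha)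

theorem twbc_isStrictOrdinaryAt (φ : A →+* B) (hφ : IsLocalHom φ) (ρ : GaloisRepAdic A) (p : ℕ)
    (h : ρ.IsStrictOrdinaryAt p) : (ρ.baseChangeAlong φ hφ).IsStrictOrdinaryAt p := by
  obtain ⟨h1, h2⟩ := h
  refine ⟨?_, ?_⟩
  · have := twbc_map_mem_maximalIdeal φ hφ h1
    rwa [map_natCast] at this
  · intro P hP
    exact @twbc_aux_strict A B _ _ φ.toAlgebra _ _ ρ.V _ _ ρ.ρ
      (P.decompositionSubgroup ℚ : Set _) (P.inertiaSubgroupIn ℚ : Set _)
      (fun σ n a => ∀ μ : AlgebraicClosure ℚ, μ ^ p ^ n = 1 → σ μ = μ ^ a) p (h2 P hP)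

theorem twbc_isOrdinaryAt (φ : A →+* B) (hφ : IsLocalHom φ) (ρ : GaloisRepAdic A) (p : ℕ)
    (h : ρ.IsOrdinaryAt p) : (ρ.baseChangeAlong φ hφ).IsOrdinaryAt p := by
  intro P hP
  exact @twbc_aux_ord A B _ _ φ.toAlgebra _ _ ρ.V _ _ ρ.ρ
    (P.decompositionSubgroup ℚ : Set _) (P.inertiaSubgroupIn ℚ : Set _) (h P hP)

end Easy

section FlatAux

variable {A B : Type} [CommRing A] [CommRing B] [Algebra A B]
variable {M : Type} [AddCommGroup M] [Module A M]

/-- an element of `J • ⊤` has all its coordinates in `J` -/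
theorem twbc_repr_mem_of_mem_smul_top {ι : Type} {N : Type} [AddCommGroup N] [Module B N]
    (b : Module.Basis ι B N) (J : Ideal B) {x : N}
    (hx : x ∈ J • (⊤ : Submodule B N)) (i : ι) : b.repr x i ∈ J := by
  refine Submodule.smul_induction_on (p := fun x => b.repr x i ∈ J) hx ?_ ?_
  · intro c hc n _
    rw [map_smul, Finsupp.smul_apply, smul_eq_mul]
    exact Ideal.mul_mem_right _ _ hc
  · intro x y hx hy
    rw [map_add, Finsupp.add_apply]
    exact Ideal.add_mem _ hx hy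

/-- the map `v ↦ [1 ⊗ v]` -/
noncomputable def twbcPsi (J : Ideal B) :
    M →ₗ[A] ((B ⊗[A] M) ⧸ (J • (⊤ : Submodule B (B ⊗[A] M)))) :=
  ((J • (⊤ : Submodule B (B ⊗[A] M))).mkQ.restrictScalars A).comp (TensorProduct.mk A B M 1)

theorem twbcPsi_apply (J : Ideal B) (v : M) :
    twbcPsi (A := A) J v = Submodule.Quotient.mk ((1 : B) ⊗ₜ[A] v) := rfl

theorem twbcPsi_surjective (hsurj : Function.Surjective (algebraMap A B)) (J : Ideal B) :
    Function.Surjective (twbcPsi (A := A) (M := M) J) := by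
  intro y
  obtain ⟨w, rfl⟩ := Submodule.Quotient.mk_surjective _ y
  induction w using TensorProduct.induction_on with
  | zero => exact ⟨0, by rw [map_zero]; rfl⟩
  | tmul c v =>
    obtain ⟨a, rfl⟩ := hsurj c
    refine ⟨a • v, ?_⟩
    rw [twbcPsi_apply, TensorProduct.tmul_smul, TensorProduct.smul_tmul', Algebra.smul_def, mul_one]
  | add x y hx hy =>
    obtain ⟨u, hu⟩ := hx
    obtain ⟨v, hv⟩ := hy
    exact ⟨u + v, by rw [map_add, hu, hv]; rfl⟩

theorem twbcPsi_ker {ι : Type} [Fintype ι] (b : Module.Basis ι A M) (J : Ideal B) :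
    LinearMap.ker (twbcPsi (A := A) (M := M) J) =
      (J.comap (algebraMap A B)) • (⊤ : Submodule A M) := by
  apply le_antisymm
  · intro v hv
    rw [LinearMap.mem_ker, twbcPsi_apply, Submodule.Quotient.mk_eq_zero] at hv
    have hcoord : ∀ i, b.repr v i ∈ J.comap (algebraMap A B) := by
      intro i
      have h1 := twbc_repr_mem_of_mem_smul_top (b.baseChange B) J hv i
      rw [Module.Basis.baseChange_repr_tmul, Algebra.smul_def, mul_one] at h1
      exact h1
    rw [← b.sum_repr v]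
    exact Submodule.sum_mem _ fun i _ => Submodule.smul_mem_smul (hcoord i) Submodule.mem_top
  · rw [Submodule.smul_le]
    intro a ha v _
    rw [LinearMap.mem_ker, twbcPsi_apply, Submodule.Quotient.mk_eq_zero, TensorProduct.tmul_smul,
      ← algebraMap_smul B a ((1 : B) ⊗ₜ[A] v)]
    exact Submodule.smul_mem_smul ha Submodule.mem_top

/-- `V / φ⁻¹(J) V ≃ (B ⊗ V) / J (B ⊗ V)` for `φ` surjective. -/
noncomputable def twbcEquiv {ι : Type} [Fintype ι] (b : Module.Basis ι A M)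
    (hsurj : Function.Surjective (algebraMap A B)) (J : Ideal B) :
    (M ⧸ ((J.comap (algebraMap A B)) • (⊤ : Submodule A M))) ≃ₗ[A]
      ((B ⊗[A] M) ⧸ (J • (⊤ : Submodule B (B ⊗[A] M)))) :=
  (Submodule.quotEquivOfEq _ _ (twbcPsi_ker b J).symm).trans
    ((twbcPsi (A := A) (M := M) J).quotKerEquivOfSurjective (twbcPsi_surjective hsurj J))

theorem twbcEquiv_mk {ι : Type} [Fintype ι] (b : Module.Basis ι A M)
    (hsurj : Function.Surjective (algebraMap A B)) (J : Ideal B) (v : M) :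
    twbcEquiv b hsurj J (Submodule.Quotient.mk v) = Submodule.Quotient.mk ((1 : B) ⊗ₜ[A] v) :=
  rfl

theorem twbcEquiv_mapQ {ι : Type} [Fintype ι] (b : Module.Basis ι A M)
    (hsurj : Function.Surjective (algebraMap A B)) (J : Ideal B) (f : M →ₗ[A] M)
    (hf : (J.comap (algebraMap A B)) • (⊤ : Submodule A M) ≤
      ((J.comap (algebraMap A B)) • (⊤ : Submodule A M)).comap f)
    (hf' : J • (⊤ : Submodule B (B ⊗[A] M)) ≤
      (J • (⊤ : Submodule B (B ⊗[A] M))).comap (f.baseChange B))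
    (x : M ⧸ ((J.comap (algebraMap A B)) • (⊤ : Submodule A M))) :
    twbcEquiv b hsurj J (Submodule.mapQ _ _ f hf x) =
      Submodule.mapQ _ _ (f.baseChange B) hf' (twbcEquiv b hsurj J x) := by
  obtain ⟨v, rfl⟩ := Submodule.Quotient.mk_surjective _ x
  rw [Submodule.mapQ_apply, twbcEquiv_mk, twbcEquiv_mk, Submodule.mapQ_apply,
    LinearMap.baseChange_tmul]

end FlatAux

section Flat

variable {A B : Type} [CommRing A] [IsLocalRing A] [CommRing B] [IsLocalRing B]

theorem twbc_finite_residueField (φ : A →+* B) (hsurj : Function.Surjective φ)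
    [Finite (ResidueField A)] : Finite (ResidueField B) := by
  refine Finite.of_surjective (fun x : ResidueField A =>
    residue B (φ (Function.surjInv (IsLocalRing.residue_surjective (R := A)) x))) ?_
  intro y
  obtain ⟨c, rfl⟩ := IsLocalRing.residue_surjective y
  obtain ⟨a, rfl⟩ := hsurj c
  refine ⟨residue A a, ?_⟩
  have h1 : residue A (Function.surjInv (IsLocalRing.residue_surjective (R := A)) (residue A a)) =
      residue A a := Function.surjInv_eq _ _
  have h2 : Function.surjInv (IsLocalRing.residue_surjective (R := A)) (residue A a) - a ∈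
      maximalIdeal A := by
    rw [← residue_eq_zero_iff, map_sub, h1, sub_self]
  have h3 : IsLocalHom φ := by
    refine ⟨fun a ha => ?_⟩
    by_contra hna
    have ham : a ∈ maximalIdeal A := (IsLocalRing.mem_maximalIdeal _).2 hna
    -- `1 - a b` is a unit for the preimage `b` of the inverse of `φ a`
    obtain ⟨u, hu⟩ := ha
    obtain ⟨b, hb⟩ := hsurj (↑u⁻¹ : B)
    have h4 : φ (1 - a * b) = 0 := by
      rw [map_sub, map_one, map_mul, hb, ← hu, Units.mul_inv, sub_self]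
    have h5 : IsUnit (1 - a * b) := by
      by_contra h6
      have h7 : (1 - a * b) ∈ maximalIdeal A := (IsLocalRing.mem_maximalIdeal _).2 h6
      have h8 : (1 : A) ∈ maximalIdeal A := by
        have := Ideal.add_mem _ h7 (Ideal.mul_mem_right b _ ham)
        simpa using this
      exact (Ideal.ne_top_iff_one _).1 (IsLocalRing.maximalIdeal.isMaximal A).ne_top h8
    have h9 := h5.map φ
    rw [h4] at h9
    exact not_isUnit_zero h9
  have h10 : φ (Function.surjInv (IsLocalRing.residue_surjective (R := A)) (residue A a) - a) ∈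
      maximalIdeal B := twbc_map_mem_maximalIdeal φ h3 h2
  rw [map_sub, ← residue_eq_zero_iff, map_sub, sub_eq_zero] at h10
  exact h10

theorem twbc_finite_quotient_comap (φ : A →+* B) (J : Ideal B) [Finite (B ⧸ J)] :
    Finite (A ⧸ J.comap φ) :=
  Finite.of_injective (Ideal.quotientMap J φ le_rfl)
    (Ideal.quotientMap_injective' le_rfl)

/-- **TW-bc, flat.** Flatness at `p` passes to the base change along a surjection. -/
theorem twbc_isFlatAt (φ : A →+* B) (hφ : IsLocalHom φ) (hsurj : Function.Surjective φ)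
    (ρ : GaloisRepAdic A) (p : ℕ) (h : ρ.IsFlatAt p) : (ρ.baseChangeAlong φ hφ).IsFlatAt p := by
  obtain ⟨hfin, hI⟩ := h
  refine ⟨twbc_finite_residueField φ hsurj, ?_⟩
  intro J hJ
  letI : Algebra A B := φ.toAlgebra
  have hsurj' : Function.Surjective (algebraMap A B) := hsurj
  obtain ⟨H, i1, i2, h1, h2, h3, e, he1, he2⟩ :=
    hI (J.comap φ) (twbc_finite_quotient_comap φ J)
  let b : Module.Basis (Fin 2) A ρ.V := Module.finBasisOfFinrankEq A ρ.V ρ.finrank_eq
  let E := twbcEquiv (B := B) b hsurj' J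
  refine ⟨H, i1, i2, h1, h2, h3, e.trans E.toEquiv, ?_, ?_⟩
  · intro f g
    show E (e (f * g)) = E (e f) + E (e g)
    rw [he1, map_add]
  · intro σ f g hfg
    show E (e g) = _
    rw [he2 σ f g hfg]
    exact twbcEquiv_mapQ b hsurj' J (ρ.ρ σ) _ _ (e f)

end Flat

section Conditions

variable (𝒪 : Type) [CommRing 𝒪]
variable {A B : Type} [CommRing A] [IsLocalRing A] [Algebra 𝒪 A] [CommRing B] [IsLocalRing B]
  [Algebra 𝒪 B]

theorem twbc_strictOrdinaryCondition (φ : A →+* B) (hφ : IsLocalHom φ) (p : ℕ) (S : Finset ℕ)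
    (ρ : GaloisRepAdic A) (h : GaloisRep.strictOrdinaryCondition 𝒪 p S ρ) :
    GaloisRep.strictOrdinaryCondition 𝒪 p S (ρ.baseChangeAlong φ hφ) :=
  ⟨twbc_detIsCyclotomic φ hφ ρ p h.1, twbc_isStrictOrdinaryAt φ hφ ρ p h.2.1,
    fun q hq hqS => twbc_isUnramifiedAt φ hφ ρ q (h.2.2 q hq hqS)⟩

theorem twbc_ordinaryCondition (φ : A →+* B) (hφ : IsLocalHom φ) (p : ℕ) (S : Finset ℕ)
    (ρ : GaloisRepAdic A) (h : GaloisRep.ordinaryCondition 𝒪 p S ρ) :
    GaloisRep.ordinaryCondition 𝒪 p S (ρ.baseChangeAlong φ hφ) :=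
  ⟨twbc_detIsCyclotomic φ hφ ρ p h.1, twbc_isOrdinaryAt φ hφ ρ p h.2.1,
    fun q hq hqS => twbc_isUnramifiedAt φ hφ ρ q (h.2.2 q hq hqS)⟩

theorem twbc_flatCondition (φ : A →+* B) (hφ : IsLocalHom φ) (hsurj : Function.Surjective φ)
    (p : ℕ) (S : Finset ℕ) (ρ : GaloisRepAdic A) (h : GaloisRep.flatCondition 𝒪 p S ρ) :
    GaloisRep.flatCondition 𝒪 p S (ρ.baseChangeAlong φ hφ) :=
  ⟨twbc_detIsCyclotomic φ hφ ρ p h.1, twbc_isFlatAt φ hφ hsurj ρ p h.2.1,
    fun q hq hqS => twbc_isUnramifiedAt φ hφ ρ q (h.2.2 q hq hqS)⟩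

end Conditions

section TanBC

variable {𝒪 : Type} [CommRing 𝒪] [IsDomain 𝒪] [IsDiscreteValuationRing 𝒪]
  [IsAdicComplete (maximalIdeal 𝒪) 𝒪]
variable {ρbar : ResidualGaloisRep (ResidueField 𝒪)}

/-- **TW-bc, ordinary case**: `TwTanBC` for the strictly ordinary condition of S56. -/
theorem twTanBC_ord (p : ℕ) (S' Smin : Finset ℕ)
    (DQ : GaloisRep.DeformationRingData 𝒪 ρbar (fun _A _ _ _ ρ =>
      GaloisRep.strictOrdinaryCondition 𝒪 p S' ρ ∧
        ∀ q ∈ Smin, q.Prime → q ≠ p → ρ.IsUnipotentOnInertiaAt q)) : TwTanBC DQ := by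
  intro q hq _
  exact ⟨twbc_strictOrdinaryCondition 𝒪 _ hq p S' DQ.ρ DQ.isOfType.1,
    fun l hl hlp hlne => twbc_isUnipotentOnInertiaAt _ hq DQ.ρ l (DQ.isOfType.2 l hl hlp hlne)⟩

/-- **TW-bc, flat case**: `TwTanBC` for the flat condition of S56. -/
theorem twTanBC_flat (p : ℕ) (S' Smin : Finset ℕ)
    (DQ : GaloisRep.DeformationRingData 𝒪 ρbar (fun _A _ _ _ ρ =>
      GaloisRep.flatCondition 𝒪 p S' ρ ∧
        ∀ q ∈ Smin, q.Prime → q ≠ p → ρ.IsUnipotentOnInertiaAt q)) : TwTanBC DQ := by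
  intro q hq hsurj
  exact ⟨twbc_flatCondition 𝒪 _ hq hsurj p S' DQ.ρ DQ.isOfType.1,
    fun l hl hlp hlne => twbc_isUnipotentOnInertiaAt _ hq DQ.ρ l (DQ.isOfType.2 l hl hlp hlne)⟩

end TanBC

end Fermat.Agent.TW
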