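import Fermat.Agent.TW.Plan
import Fermat.Agent.TW.BC

/-!
# S56, TW-bc: the two base change statements of `TW/Plan.lean`
-/

set_option autoImplicit false

namespace Fermat.Agent.TW

open IsLocalRing

variable (𝒪 : Type) [CommRing 𝒪] [IsDomain 𝒪] [IsDiscreteValuationRing 𝒪]
  [IsAdicComplete (maximalIdeal 𝒪) 𝒪] [Finite (ResidueField 𝒪)]

/-- **TW-bc, ordinary half.** -/
theorem stmtBCOrd : StmtBCOrd 𝒪 := by
  intro p _ ρbar Smin Q DQ
  exact twTanBC_ord p (Smin ∪ Q) Smin DQ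

/-- **TW-bc, flat half.** -/
theorem stmtBCFlat : StmtBCFlat 𝒪 := by
  intro p _ ρbar Smin Q DQ
  exact twTanBC_flat p (Smin ∪ Q) Smin DQ

end Fermat.Agent.TW
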