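/-
S56 (Taylor–Wiles primes), piece **TW-cheb** (helper26): selection of the primes.

* `twc_frob_conj`: for a finite Galois `L ⊆ ℚ̄` and two Frobenius elements `τ` (at `A`), `φ` (at `P`)
  over the same prime `q`: `φ = g τ ι g⁻¹` on `L` for some `g ∈ G_ℚ` and some `ι` in the inertia
  group of `A`.
* `twc_exists_prime`: if `σ ∈ G_ℚ` fixes the `p^(n+1)`-th roots of unity and `ρbar σ` has distinct
  eigenvalues `α ≠ β`, then there is a prime `q ∉ S`, `q ≡ 1 mod p^(n+1)`, such that EVERY Frobenius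
  element at EVERY place over `q` has distinct eigenvalues under `ρbar`, together with one
  Frobenius element `τ` over `q` such that `τ|F` and `σ|F` are powers of each other
  (`F ⊆ ℚ̄` any given finite Galois extension of `ℚ`).
Input: the weak Chebotarev theorem `Cheb.exists_frobenius_generator`.
-/
import Mathlib
import Fermat.Prelude.Def_GaloisRep_Residual
import Fermat.Agent.Cheb.Strong
import Fermat.Agent.Common.InertiaLift
import Fermat.Agent.S31.Cyclo

set_option autoImplicit false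
set_option linter.unusedSectionVars false
set_option linter.style.haveILetI false

namespace Fermat.Agent.TW

open NumberField Polynomial
open scoped Pointwise

/-- The absolute Galois group of `ℚ`. -/
abbrev TwGQ : Type := AlgebraicClosure ℚ ≃ₐ[ℚ] AlgebraicClosure ℚ

section Fields

/-- `ℚ̄ / ℚ` is normal (for the instance of `Algebra ℚ ℚ̄` found by unification). -/
theorem twc_qbar_normal : Normal ℚ (AlgebraicClosure ℚ) := by
  have h1 : @Normal ℚ (AlgebraicClosure ℚ) _ _ (AlgebraicClosure.instAlgebra ℚ) := inferInstance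
  convert h1
  exact Subsingleton.elim _ _

/-- Three finite extensions of `ℚ` in `ℚ̄` lie in a finite Galois extension. -/
theorem twc_exists_galois_hull (E₁ E₂ E₃ : IntermediateField ℚ (AlgebraicClosure ℚ))
    [FiniteDimensional ℚ E₁] [FiniteDimensional ℚ E₂] [FiniteDimensional ℚ E₃] :
    ∃ F : IntermediateField ℚ (AlgebraicClosure ℚ), FiniteDimensional ℚ F ∧ IsGalois ℚ F ∧
      E₁ ≤ F ∧ E₂ ≤ F ∧ E₃ ≤ F := by
  have hn := twc_qbar_normal
  set K : IntermediateField ℚ (AlgebraicClosure ℚ) := E₁ ⊔ E₂ ⊔ E₃ with hK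
  have hKfin : FiniteDimensional ℚ K := inferInstance
  refine ⟨IntermediateField.normalClosure ℚ K (AlgebraicClosure ℚ), inferInstance, ?_, ?_, ?_, ?_⟩
  · have : Normal ℚ (IntermediateField.normalClosure ℚ K (AlgebraicClosure ℚ)) :=
      normalClosure.normal ℚ K (AlgebraicClosure ℚ)
    exact IsGalois.mk
  · exact le_trans (le_trans le_sup_left le_sup_left) (IntermediateField.le_normalClosure K)
  · exact le_trans (le_trans le_sup_right le_sup_left) (IntermediateField.le_normalClosure K)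
  · exact le_trans le_sup_right (IntermediateField.le_normalClosure K)

end Fields

section LinAlg

variable {k : Type*} [Field k] {V : Type*} [AddCommGroup V] [Module k V] [Module.Finite k V]

/-- A root of the characteristic polynomial has an eigenvector. -/
theorem twc_exists_eigenvector (T : Module.End k V) (α β : k)
    (h : LinearMap.charpoly T = (X - C α) * (X - C β)) :
    (∃ v : V, v ≠ 0 ∧ T v = α • v) ∧ ∃ w : V, w ≠ 0 ∧ T w = β • w := by
  have hα : (LinearMap.charpoly T).IsRoot α := by rw [h]; simp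
  have hβ : (LinearMap.charpoly T).IsRoot β := by rw [h]; simp
  obtain ⟨v, hv⟩ := ((Module.End.hasEigenvalue_iff_isRoot_charpoly T α).2 hα).exists_hasEigenvector
  obtain ⟨w, hw⟩ := ((Module.End.hasEigenvalue_iff_isRoot_charpoly T β).2 hβ).exists_hasEigenvector
  exact ⟨⟨v, hv.2, hv.apply_eq_smul⟩, ⟨w, hw.2, hw.apply_eq_smul⟩⟩

/-- Two eigenvectors with distinct eigenvalues in dimension two give the characteristic
polynomial. -/
theorem twc_charpoly_of_eigenvectors (hV : Module.finrank k V = 2) (T : Module.End k V)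
    {a b : k} (hab : a ≠ b) {v w : V} (hv : v ≠ 0) (hTv : T v = a • v) (hw : w ≠ 0)
    (hTw : T w = b • w) : LinearMap.charpoly T = (X - C a) * (X - C b) := by
  have ha : (LinearMap.charpoly T).IsRoot a :=
    (Module.End.hasEigenvalue_iff_isRoot_charpoly T a).1
      (Module.End.hasEigenvalue_of_hasEigenvector
        ⟨Module.End.mem_eigenspace_iff.2 hTv, hv⟩)
  have hb : (LinearMap.charpoly T).IsRoot b :=
    (Module.End.hasEigenvalue_iff_isRoot_charpoly T b).1
      (Module.End.hasEigenvalue_of_hasEigenvector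
        ⟨Module.End.mem_eigenspace_iff.2 hTw, hw⟩)
  have hcop : IsCoprime (X - C a : k[X]) (X - C b) :=
    Polynomial.isCoprime_X_sub_C_of_isUnit_sub (sub_ne_zero.2 hab).isUnit
  have hdvd : (X - C a) * (X - C b) ∣ LinearMap.charpoly T :=
    hcop.mul_dvd (Polynomial.dvd_iff_isRoot.2 ha) (Polynomial.dvd_iff_isRoot.2 hb)
  have hmonic : ((X - C a) * (X - C b) : k[X]).Monic :=
    (Polynomial.monic_X_sub_C a).mul (Polynomial.monic_X_sub_C b)
  have hdeg : (LinearMap.charpoly T).natDegree ≤ ((X - C a) * (X - C b) : k[X]).natDegree := by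
    rw [LinearMap.charpoly_natDegree, hV,
      Polynomial.natDegree_mul (Polynomial.X_sub_C_ne_zero a) (Polynomial.X_sub_C_ne_zero b),
      Polynomial.natDegree_X_sub_C, Polynomial.natDegree_X_sub_C]
  exact Polynomial.eq_of_monic_of_dvd_of_natDegree_le hmonic (LinearMap.charpoly_monic T) hdvd hdeg

end LinAlg

section Conj

variable (L : IntermediateField ℚ (AlgebraicClosure ℚ))

/-- The ring homomorphism `𝓞 L → A`. -/
noncomputable def twcToVal (A : ValuationSubring (AlgebraicClosure ℚ)) : 𝓞 L →+* A :=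
  (Cheb.intEmb L).codRestrict A.toSubring (fun x => Cheb.intEmb_mem L A x)

/-- The prime of `𝓞 L` below a valuation subring of `ℚ̄`. -/
noncomputable def twcPrime (A : ValuationSubring (AlgebraicClosure ℚ)) : Ideal (𝓞 L) :=
  (IsLocalRing.maximalIdeal A).comap (twcToVal L A)

instance twcPrime_isPrime (A : ValuationSubring (AlgebraicClosure ℚ)) : (twcPrime L A).IsPrime :=
  Ideal.comap_isPrime _ _

theorem twc_mem_prime (A : ValuationSubring (AlgebraicClosure ℚ)) (x : 𝓞 L) :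
    x ∈ twcPrime L A ↔ Cheb.intEmb L x ∈ A.nonunits := by
  rw [twcPrime, Ideal.mem_comap, ← ValuationSubring.coe_mem_nonunits_iff]
  rfl

theorem twc_natCast_mem_prime (A : ValuationSubring (AlgebraicClosure ℚ)) {q : ℕ}
    (hA : A.LiesOverPrime q) : (q : 𝓞 L) ∈ twcPrime L A := by
  rw [twc_mem_prime, map_natCast]
  exact hA

theorem twc_under (A : ValuationSubring (AlgebraicClosure ℚ)) {q : ℕ} (hq : q.Prime)
    (hA : A.LiesOverPrime q) : (twcPrime L A).under ℤ = Ideal.span {(q : ℤ)} := by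
  have hmax : (Ideal.span {(q : ℤ)}).IsMaximal :=
    (Ideal.span_singleton_prime (by exact_mod_cast hq.ne_zero)).mpr
      (Nat.prime_iff_prime_int.mp hq) |>.isMaximal (by simpa using hq.ne_zero)
  have hle : Ideal.span {(q : ℤ)} ≤ (twcPrime L A).under ℤ := by
    rw [Ideal.span_singleton_le_iff_mem, Ideal.under_def, Ideal.mem_comap]
    simpa using twc_natCast_mem_prime L A hA
  have hne : (twcPrime L A).under ℤ ≠ ⊤ := (Ideal.IsPrime.under ℤ (twcPrime L A)).ne_top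
  exact (hmax.eq_of_le hne hle).symm

theorem twc_liesOver (A : ValuationSubring (AlgebraicClosure ℚ)) {q : ℕ} (hq : q.Prime)
    (hA : A.LiesOverPrime q) : (twcPrime L A).LiesOver (Ideal.span {(q : ℤ)}) :=
  ⟨(twc_under L A hq hA).symm⟩

variable [FiniteDimensional ℚ L] [IsGalois ℚ L]

/-- Two primes of `𝓞 L` below valuation subrings over the same prime are conjugate. -/
theorem twc_exists_smul_eq (A P : ValuationSubring (AlgebraicClosure ℚ)) {q : ℕ} (hq : q.Prime)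
    (hA : A.LiesOverPrime q) (hP : P.LiesOverPrime q) :
    ∃ g : L ≃ₐ[ℚ] L, g • twcPrime L A = twcPrime L P := by
  haveI : NumberField L := ⟨⟩
  haveI := twc_liesOver L A hq hA
  haveI := twc_liesOver L P hq hP
  exact Ideal.exists_smul_eq_of_isGaloisGroup (Ideal.span {(q : ℤ)}) (twcPrime L A)
    (twcPrime L P) (L ≃ₐ[ℚ] L)

omit [FiniteDimensional ℚ L] [IsGalois ℚ L] in
/-- An integral element of `L` comes from `𝓞 L`. -/
theorem twc_exists_int {w : AlgebraicClosure ℚ} (hw : w ∈ L) (hint : IsIntegral ℤ w) :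
    ∃ z : 𝓞 L, Cheb.intEmb L z = w := by
  have h1 : IsIntegral ℤ (⟨w, hw⟩ : L) := by
    have h2 : IsIntegral ℤ (algebraMap L (AlgebraicClosure ℚ) ⟨w, hw⟩) := hint
    exact (isIntegral_algebraMap_iff (algebraMap L (AlgebraicClosure ℚ)).injective).1 h2
  exact ⟨⟨⟨w, hw⟩, h1⟩, rfl⟩

omit [FiniteDimensional ℚ L] [IsGalois ℚ L] in
/-- An extension `g` of `g₀ ∈ Gal(L/ℚ)` to `ℚ̄` acts on `𝓞 L` as `g₀`. -/
theorem twc_intEmb_smul (g₀ : L ≃ₐ[ℚ] L) (g : TwGQ)
    (hg : ∀ x : L, g (x : AlgebraicClosure ℚ) = ((g₀ x : L) : AlgebraicClosure ℚ)) (z : 𝓞 L) :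
    Cheb.intEmb L (g₀ • z) = g (Cheb.intEmb L z) :=
  (hg (z : L)).symm

omit [FiniteDimensional ℚ L] [IsGalois ℚ L] in
theorem twc_intEmb_inv_smul (g₀ : L ≃ₐ[ℚ] L) (g : TwGQ)
    (hg : ∀ x : L, g (x : AlgebraicClosure ℚ) = ((g₀ x : L) : AlgebraicClosure ℚ)) (z : 𝓞 L) :
    Cheb.intEmb L (g₀⁻¹ • z) = g⁻¹ (Cheb.intEmb L z) := by
  have h := twc_intEmb_smul L g₀ g hg (g₀⁻¹ • z)
  rw [smul_inv_smul] at h
  rw [h]
  exact (g.symm_apply_apply _).symm

omit [FiniteDimensional ℚ L] [IsGalois ℚ L] in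
/-- Every element of `Gal(L/ℚ)` extends to `ℚ̄`. -/
theorem twc_exists_lift (g₀ : L ≃ₐ[ℚ] L) :
    ∃ g : TwGQ, ∀ x : L, g (x : AlgebraicClosure ℚ) = ((g₀ x : L) : AlgebraicClosure ℚ) := by
  haveI : Normal ℚ (AlgebraicClosure ℚ) := twc_qbar_normal
  exact ⟨g₀.liftNormal (AlgebraicClosure ℚ),
    fun x => AlgEquiv.liftNormal_commutes g₀ (AlgebraicClosure ℚ) x⟩

omit [FiniteDimensional ℚ L] in
/-- Elements of `G_ℚ` preserve the normal field `L`. -/
theorem twc_apply_mem (g : TwGQ) {x : AlgebraicClosure ℚ} (hx : x ∈ L) : g x ∈ L :=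
  Fermat.Agent.Common.apply_mem_of_normal L g hx

/-- **Frobenius elements over `q` are conjugate modulo inertia, on a finite Galois level.** -/
theorem twc_frob_conj (A P : ValuationSubring (AlgebraicClosure ℚ)) {q : ℕ} (hq : q.Prime)
    (hA : A.LiesOverPrime q) (hP : P.LiesOverPrime q) (τ φ : TwGQ)
    (hτ : A.IsFrobeniusAt τ q) (hφ : P.IsFrobeniusAt φ q) :
    ∃ g ι : TwGQ, ι ∈ A.inertiaSubgroupIn ℚ ∧ ∀ x ∈ L, φ x = (g * τ * ι * g⁻¹) x := by
  obtain ⟨g₀, hg₀⟩ := twc_exists_smul_eq L A P hq hA hP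
  obtain ⟨g, hg⟩ := twc_exists_lift L g₀
  set σ₀ : TwGQ := τ⁻¹ * g⁻¹ * φ * g with hσ₀
  have hτD : τ⁻¹ ∈ A.decompositionSubgroup ℚ := Subgroup.inv_mem _ hτ.mem_decompositionSubgroup
  have key : ∀ x ∈ L, IsIntegral ℤ x → σ₀ x - x ∈ A.nonunits := by
    intro x hx hint
    -- `y = g x`
    have hyL : g x ∈ L := twc_apply_mem L g hx
    have hyint : IsIntegral ℤ (g x) := hint.map (g : AlgebraicClosure ℚ →ₐ[ℚ] AlgebraicClosure ℚ).toRingHom.toIntAlgHom
    obtain ⟨y, hy⟩ := twc_exists_int L hyL hyint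
    -- `z = φ y - y ^ q ∈ 𝔓`
    have hz : (MulSemiringAction.toAlgHom ℤ (𝓞 L) (φ.restrictNormal L)) y - y ^ q ∈
        twcPrime L P := by
      rw [twc_mem_prime, map_sub, map_pow]
      have h1 : Cheb.intEmb L ((MulSemiringAction.toAlgHom ℤ (𝓞 L) (φ.restrictNormal L)) y) =
          φ (Cheb.intEmb L y) := AlgEquiv.restrictNormal_commutes φ L (y : L)
      rw [h1]
      exact Cheb.sub_pow_mem_nonunits_of_isFrobeniusAt P φ q hφ _ (Cheb.intEmb_mem L P y)
    rw [← hg₀, Ideal.mem_pointwise_smul_iff_inv_smul_mem, twc_mem_prime,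
      twc_intEmb_inv_smul L g₀ g hg, map_sub, map_pow] at hz
    have h1 : Cheb.intEmb L ((MulSemiringAction.toAlgHom ℤ (𝓞 L) (φ.restrictNormal L)) y) =
        φ (Cheb.intEmb L y) := AlgEquiv.restrictNormal_commutes φ L (y : L)
    rw [h1, hy, map_sub, map_pow] at hz
    have h2 : g⁻¹ (g x) = x := g.symm_apply_apply x
    rw [h2] at hz
    -- `τ x - x ^ q ∈ 𝔄`
    obtain ⟨x', hx'⟩ := twc_exists_int L hx hint
    have h3 : τ x - x ^ q ∈ A.nonunits := by
      rw [← hx']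
      exact Cheb.sub_pow_mem_nonunits_of_isFrobeniusAt A τ q hτ _ (Cheb.intEmb_mem L A x')
    have h4 : g⁻¹ (φ (g x)) - τ x ∈ A.nonunits := by
      have := A.nonunits.add_mem hz (A.nonunits.neg_mem h3)
      have e : g⁻¹ (φ (g x)) - x ^ q + -(τ x - x ^ q) = g⁻¹ (φ (g x)) - τ x := by ring
      rwa [e] at this
    have h5 : τ⁻¹ (g⁻¹ (φ (g x)) - τ x) ∈ A.nonunits :=
      (Fermat.Agent.S05.apply_mem_nonunits_iff_of_mem_decomposition hτD _).2 h4
    have e2 : τ⁻¹ (g⁻¹ (φ (g x)) - τ x) = σ₀ x - x := by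
      rw [map_sub]
      have : τ⁻¹ (τ x) = x := τ.symm_apply_apply x
      rw [this]
      rfl
    rwa [e2] at h5
  obtain ⟨ι, hι, hιL⟩ :=
    Fermat.Agent.Common.exists_mem_inertiaSubgroupIn_of_congr L q hq A hA σ₀ key
  refine ⟨g, ι, hι, fun x hx => ?_⟩
  have hx' : g⁻¹ x ∈ L := twc_apply_mem L g⁻¹ hx
  show φ x = g (τ (ι (g⁻¹ x)))
  rw [hιL _ hx']
  show φ x = g (τ (τ⁻¹ (g⁻¹ (φ (g (g⁻¹ x))))))
  have e1 : g (g⁻¹ x) = x := g.apply_symm_apply x
  have e2 : τ (τ⁻¹ (g⁻¹ (φ x))) = g⁻¹ (φ x) := τ.apply_symm_apply _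
  have e3 : g (g⁻¹ (φ x)) = φ x := g.apply_symm_apply _
  rw [e1, e2, e3]

end Conj

section Main

variable {k : Type} [Field k] (ρbar : ResidualGaloisRep k)

/-- `ρbar` factors through a finite Galois level containing two given finite extensions. -/
theorem twc_exists_level (E₁ E₂ : IntermediateField ℚ (AlgebraicClosure ℚ))
    [FiniteDimensional ℚ E₁] [FiniteDimensional ℚ E₂] :
    ∃ L : IntermediateField ℚ (AlgebraicClosure ℚ), FiniteDimensional ℚ L ∧ IsGalois ℚ L ∧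
      E₁ ≤ L ∧ E₂ ≤ L ∧ ∀ σ : TwGQ, (∀ x ∈ L, σ x = x) → ρbar.ρ σ = 1 := by
  obtain ⟨L₀, hL₀, h⟩ := ρbar.factorsThroughFiniteLevel
  obtain ⟨L, hLfin, hLgal, h1, h2, h3⟩ := twc_exists_galois_hull E₁ E₂ L₀
  exact ⟨L, hLfin, hLgal, h1, h2, fun σ hσ => h σ fun x hx => hσ x (h3 hx)⟩

/-- `ρbar` only depends on the restriction to a level. -/
theorem twc_rho_eq_of_eqOn (L : IntermediateField ℚ (AlgebraicClosure ℚ))
    (hL : ∀ σ : TwGQ, (∀ x ∈ L, σ x = x) → ρbar.ρ σ = 1) (σ τ : TwGQ)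
    (h : ∀ x ∈ L, σ x = τ x) : ρbar.ρ σ = ρbar.ρ τ := by
  have h1 : ρbar.ρ (τ⁻¹ * σ) = 1 := by
    refine hL _ fun x hx => ?_
    show τ⁻¹ (σ x) = x
    rw [h x hx]
    exact τ.symm_apply_apply x
  have h2 : ρbar.ρ τ * ρbar.ρ (τ⁻¹ * σ) = ρbar.ρ σ := by
    rw [← map_mul, mul_inv_cancel_left]
  rw [← h2, h1, mul_one]

/-- **TW-cheb.** Selection of a Taylor–Wiles prime by the weak Chebotarev theorem. -/
theorem twc_exists_prime (p : ℕ) [Fact p.Prime] (S : Finset ℕ) (hpS : p ∈ S)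
    (hunr : ∀ q : ℕ, q.Prime → q ∉ S → ρbar.IsUnramifiedAt q)
    (F : IntermediateField ℚ (AlgebraicClosure ℚ)) [FiniteDimensional ℚ F]
    (n : ℕ) (σ : TwGQ) (hσ : ∀ μ : AlgebraicClosure ℚ, μ ^ p ^ (n + 1) = 1 → σ μ = μ)
    (α β : k) (hαβ : α ≠ β)
    (hchar : LinearMap.charpoly (ρbar.ρ σ) = (X - C α) * (X - C β)) :
    ∃ q : ℕ, q.Prime ∧ q ∉ S ∧ p ^ (n + 1) ∣ q - 1 ∧
      (∀ P : ValuationSubring (AlgebraicClosure ℚ), P.LiesOverPrime q →
        ∀ φ : TwGQ, P.IsFrobeniusAt φ q →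
          ∃ α' β' : k, α' ≠ β' ∧
            LinearMap.charpoly (ρbar.ρ φ) = (X - C α') * (X - C β')) ∧
      ∃ (A : ValuationSubring (AlgebraicClosure ℚ)) (τ : TwGQ) (m j : ℕ),
        A.LiesOverPrime q ∧ A.IsFrobeniusAt τ q ∧ (∀ x ∈ F, (τ ^ m) x = σ x) ∧
          (∀ x ∈ F, (σ ^ j) x = τ x) ∧ ρbar.ρ τ = ρbar.ρ σ ^ j ∧ ρbar.ρ σ = ρbar.ρ τ ^ m := by
  have hp : p.Prime := Fact.out
  have hpn0 : p ^ (n + 1) ≠ 0 := pow_ne_zero _ hp.ne_zero
  haveI : NeZero (p ^ (n + 1)) := ⟨hpn0⟩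
  -- a primitive root of unity and the cyclotomic field
  obtain ⟨ζ, hζ⟩ := HasEnoughRootsOfUnity.exists_primitiveRoot (AlgebraicClosure ℚ) (p ^ (n + 1))
  have hζint : IsIntegral ℚ ζ := (hζ.isIntegral (Nat.pos_of_ne_zero hpn0)).tower_top
  haveI : FiniteDimensional ℚ (IntermediateField.adjoin ℚ {ζ}) :=
    IntermediateField.adjoin.finiteDimensional hζint
  obtain ⟨L, hLfin, hLgal, hFL, hζL, hL⟩ :=
    twc_exists_level ρbar F (IntermediateField.adjoin ℚ {ζ})
  have hζmem : ζ ∈ L := hζL (IntermediateField.mem_adjoin_simple_self ℚ ζ)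
  -- weak Chebotarev
  obtain ⟨q, A, τ, m, j, hq, hqS, hA, hτ, hτm, hσj⟩ :=
    Fermat.Agent.Cheb.exists_frobenius_generator L S σ
  have hqp : q ≠ p := fun h => hqS (h ▸ hpS)
  -- the representation at `τ`
  have hρτ : ρbar.ρ τ = ρbar.ρ σ ^ j := by
    rw [← map_pow]
    exact twc_rho_eq_of_eqOn ρbar L hL τ (σ ^ j) fun x hx => (hσj x hx).symm
  have hρσ : ρbar.ρ σ = ρbar.ρ τ ^ m := by
    rw [← map_pow]
    exact twc_rho_eq_of_eqOn ρbar L hL σ (τ ^ m) fun x hx => (hτm x hx).symm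
  have hρσ' : ρbar.ρ σ = ρbar.ρ σ ^ (j * m) := by
    conv_lhs => rw [hρσ, hρτ]
    rw [pow_mul]
  -- eigenvectors
  haveI : Module.Finite k ρbar.V := inferInstance
  obtain ⟨⟨v, hv, hTv⟩, ⟨w, hw, hTw⟩⟩ := twc_exists_eigenvector (ρbar.ρ σ) α β hchar
  have hpow : ∀ (c : k) (u : ρbar.V), ρbar.ρ σ u = c • u → ∀ i : ℕ,
      (ρbar.ρ σ ^ i) u = c ^ i • u := by
    intro c u hu i
    induction i with
    | zero => simp
    | succ i ih =>
      rw [pow_succ, Module.End.mul_apply, hu, map_smul, ih, smul_smul, pow_succ, mul_comm]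
  have hfix : ∀ (c : k) (u : ρbar.V), u ≠ 0 → ρbar.ρ σ u = c • u → c ^ (j * m) = c := by
    intro c u hu0 hu
    have h1 := hpow c u hu (j * m)
    rw [← hρσ', hu] at h1
    have h2 : (c - c ^ (j * m)) • u = 0 := by rw [sub_smul, h1, sub_self]
    rcases smul_eq_zero.1 h2 with h3 | h3
    · exact (sub_eq_zero.1 h3).symm
    · exact absurd h3 hu0
  have hαβj : α ^ j ≠ β ^ j := by
    intro h
    apply hαβ
    rw [← hfix α v hv hTv, ← hfix β w hw hTw, pow_mul, pow_mul, h]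
  -- `q ≡ 1 mod p^(n+1)`
  have hdvd : p ^ (n + 1) ∣ q - 1 := by
    have hM : ((p ^ (n + 1) : ℕ) : AlgebraicClosure ℚ) ∉ A.nonunits :=
      Fermat.Agent.S31.natCast_pow_not_mem_nonunits A hp hq hqp hA (n + 1)
    have h1 : τ ζ = ζ ^ q :=
      Fermat.Agent.S31.frob_rootOfUnity A hM hpn0 hτ hζ.pow_eq_one
    have hσpow : ∀ i : ℕ, (σ ^ i) ζ = ζ := by
      intro i
      induction i with
      | zero => rfl
      | succ i ih =>
        rw [pow_succ, AlgEquiv.mul_apply, hσ ζ hζ.pow_eq_one, ih]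
    have h2 : τ ζ = ζ := by rw [← hσj ζ hζmem, hσpow]
    have h3 : ζ ^ q = ζ := by rw [← h1, h2]
    have hζ0 : ζ ≠ 0 := hζ.ne_zero hpn0
    have h4 : ζ ^ (q - 1) = 1 := by
      have h5 : ζ ^ (q - 1) * ζ = 1 * ζ := by
        rw [← pow_succ, Nat.sub_add_cancel hq.one_le, h3, one_mul]
      exact mul_right_cancel₀ hζ0 h5
    exact hζ.dvd_of_pow_eq_one _ h4
  refine ⟨q, hq, hqS, hdvd, ?_, A, τ, m, j, hA, hτ, fun x hx => hτm x (hFL hx),
    fun x hx => hσj x (hFL hx), hρτ, hρσ⟩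
  -- every Frobenius element over `q`
  intro P hP φ hφ
  obtain ⟨g, ι, hι, hφL⟩ := twc_frob_conj L A P hq hA hP τ φ hτ hφ
  have hρι : ρbar.ρ ι = 1 := hunr q hq hqS A hA ι hι
  have hρφ : ρbar.ρ φ = ρbar.ρ g * ρbar.ρ σ ^ j * ρbar.ρ g⁻¹ := by
    rw [twc_rho_eq_of_eqOn ρbar L hL φ (g * τ * ι * g⁻¹) hφL, map_mul, map_mul, map_mul, hρι,
      mul_one, hρτ]
  have hgg : ∀ u : ρbar.V, ρbar.ρ g⁻¹ (ρbar.ρ g u) = u := by
    intro u
    have : ρbar.ρ g⁻¹ * ρbar.ρ g = 1 := by rw [← map_mul, inv_mul_cancel, map_one]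
    exact congrArg (fun f : Module.End k ρbar.V => f u) this
  have heig : ∀ (c : k) (u : ρbar.V), u ≠ 0 → ρbar.ρ σ u = c • u →
      ρbar.ρ g u ≠ 0 ∧ ρbar.ρ φ (ρbar.ρ g u) = c ^ j • ρbar.ρ g u := by
    intro c u hu0 hu
    refine ⟨fun h0 => hu0 ?_, ?_⟩
    · rw [← hgg u, h0, map_zero]
    · rw [hρφ, Module.End.mul_apply, Module.End.mul_apply, hgg, hpow c u hu j, map_smul]
  obtain ⟨hv', hTv'⟩ := heig α v hv hTv
  obtain ⟨hw', hTw'⟩ := heig β w hw hTw
  exact ⟨α ^ j, β ^ j, hαβj,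
    twc_charpoly_of_eigenvectors ρbar.finrank_eq (ρbar.ρ φ) hαβj hv' hTv' hw' hTw'⟩

/-- **TW-cheb, several primes.** For `σ₁, …, σ_r ∈ G_ℚ` fixing the `p^(n+1)`-th roots of unity
with `ρbar (σ i)` having distinct eigenvalues, there are DISTINCT primes `q₁, …, q_r ∉ S`,
`q i ≡ 1 mod p^(n+1)`, such that every Frobenius element over `q i` has distinct eigenvalues and
some Frobenius element `τ` over `q i` generates the same subgroup of `Gal(F/ℚ)` as `σ i`. -/
theorem twc_exists_primes (p : ℕ) [Fact p.Prime] (S : Finset ℕ) (hpS : p ∈ S)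
    (hunr : ∀ q : ℕ, q.Prime → q ∉ S → ρbar.IsUnramifiedAt q)
    (F : IntermediateField ℚ (AlgebraicClosure ℚ)) [FiniteDimensional ℚ F] (n : ℕ) :
    ∀ (r : ℕ) (σ : Fin r → TwGQ),
      (∀ i, ∀ μ : AlgebraicClosure ℚ, μ ^ p ^ (n + 1) = 1 → σ i μ = μ) →
      (∀ i, ∃ α β : k, α ≠ β ∧ LinearMap.charpoly (ρbar.ρ (σ i)) = (X - C α) * (X - C β)) →
      ∃ qv : Fin r → ℕ, Function.Injective qv ∧
        (∀ i, (qv i).Prime ∧ qv i ∉ S ∧ p ^ (n + 1) ∣ qv i - 1) ∧
        (∀ i, ∀ P : ValuationSubring (AlgebraicClosure ℚ), P.LiesOverPrime (qv i) →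
          ∀ φ : TwGQ, P.IsFrobeniusAt φ (qv i) →
            ∃ α' β' : k, α' ≠ β' ∧
              LinearMap.charpoly (ρbar.ρ φ) = (X - C α') * (X - C β')) ∧
        ∀ i, ∃ (A : ValuationSubring (AlgebraicClosure ℚ)) (τ : TwGQ) (m j : ℕ),
          A.LiesOverPrime (qv i) ∧ A.IsFrobeniusAt τ (qv i) ∧ (∀ x ∈ F, (τ ^ m) x = σ i x) ∧
            (∀ x ∈ F, (σ i ^ j) x = τ x) ∧ ρbar.ρ τ = ρbar.ρ (σ i) ^ j ∧
            ρbar.ρ (σ i) = ρbar.ρ τ ^ m := by
  classical
  intro r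
  induction r with
  | zero =>
    intro σ _ _
    exact ⟨Fin.elim0, fun i => i.elim0, fun i => i.elim0, fun i => i.elim0, fun i => i.elim0⟩
  | succ r ih =>
    intro σ hσ hchar
    obtain ⟨qv, hinj, h1, h2, h3⟩ := ih (fun i => σ i.castSucc) (fun i => hσ i.castSucc)
      (fun i => hchar i.castSucc)
    set S' : Finset ℕ := S ∪ Finset.univ.image qv with hS'
    obtain ⟨α, β, hαβ, hc⟩ := hchar (Fin.last r)
    obtain ⟨q, hq, hqS', hdvd, hall, hone⟩ := twc_exists_prime ρbar p S'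
      (Finset.mem_union_left _ hpS)
      (fun q hq hqS' => hunr q hq fun h => hqS' (Finset.mem_union_left _ h))
      F n (σ (Fin.last r)) (hσ (Fin.last r)) α β hαβ hc
    have hqS : q ∉ S := fun h => hqS' (Finset.mem_union_left _ h)
    have hqv : ∀ i, qv i ≠ q := by
      intro i h
      apply hqS'
      rw [← h]
      exact Finset.mem_union_right _ (Finset.mem_image_of_mem _ (Finset.mem_univ i))
    refine ⟨Fin.snoc qv q, ?_, ?_, ?_, ?_⟩
    · intro a b hab
      induction a using Fin.lastCases with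
      | last =>
        induction b using Fin.lastCases with
        | last => rfl
        | cast b =>
          rw [Fin.snoc_last, Fin.snoc_castSucc] at hab
          exact absurd hab.symm (hqv b)
      | cast a =>
        induction b using Fin.lastCases with
        | last =>
          rw [Fin.snoc_last, Fin.snoc_castSucc] at hab
          exact absurd hab (hqv a)
        | cast b =>
          rw [Fin.snoc_castSucc, Fin.snoc_castSucc] at hab
          rw [hinj hab]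
    · intro i
      induction i using Fin.lastCases with
      | last => rw [Fin.snoc_last]; exact ⟨hq, hqS, hdvd⟩
      | cast i => rw [Fin.snoc_castSucc]; exact h1 i
    · intro i
      induction i using Fin.lastCases with
      | last => rw [Fin.snoc_last]; exact hall
      | cast i => rw [Fin.snoc_castSucc]; exact h2 i
    · intro i
      induction i using Fin.lastCases with
      | last => rw [Fin.snoc_last]; exact hone
      | cast i => rw [Fin.snoc_castSucc]; exact h3 i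

end Main

end Fermat.Agent.TW
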