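import Fermat.Agent.TW.BC
import Fermat.Agent.S53.Bar

/-!
# S56, piece TW-res: invariance under equivalence, and the residual representation is of type `𝒟`

* `tweq_*`: the local conditions are invariant under `GaloisRepAdic.IsEquiv`;
* `twres_ord`, `twres_flat`: if a `DeformationRingData` for one of the two conditions of S56
  exists, then `ρbar` itself satisfies the condition.
-/

set_option autoImplicit false

namespace Fermat.Agent.TW

open IsLocalRing Fermat.Agent.S53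

section Equiv

variable {A : Type} [CommRing A] [IsLocalRing A]

theorem tweq_ρ_eq_conj {ρ ρ' : GaloisRepAdic A} (e : GaloisRepAdic.Equiv ρ ρ')
    (σ : AlgebraicClosure ℚ ≃ₐ[ℚ] AlgebraicClosure ℚ) :
    ρ'.ρ σ = e.toLinearEquiv.conj (ρ.ρ σ) := by
  apply LinearMap.ext
  intro y
  obtain ⟨x, rfl⟩ := e.toLinearEquiv.surjective y
  rw [LinearEquiv.conj_apply_apply, LinearEquiv.symm_apply_apply, e.map_apply]

theorem tweq_detIsCyclotomic {ρ ρ' : GaloisRepAdic A} (h : ρ.IsEquiv ρ') (p : ℕ)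
    (hρ : ρ.DetIsCyclotomic p) : ρ'.DetIsCyclotomic p := by
  obtain ⟨e⟩ := h
  refine ⟨hρ.1, fun n σ a ha => ?_⟩
  have hdet : LinearMap.det (ρ'.ρ σ) = LinearMap.det (ρ.ρ σ) := by
    rw [tweq_ρ_eq_conj e]
    exact LinearMap.det_conj (ρ.ρ σ) e.toLinearEquiv
  rw [hdet]
  exact hρ.2 n σ a ha

theorem tweq_isUnramifiedAt {ρ ρ' : GaloisRepAdic A} (h : ρ.IsEquiv ρ') (q : ℕ)
    (hρ : ρ.IsUnramifiedAt q) : ρ'.IsUnramifiedAt q := by
  obtain ⟨e⟩ := h
  intro P hP σ hσ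
  rw [tweq_ρ_eq_conj e, hρ P hP σ hσ]
  apply LinearMap.ext
  intro y
  rw [LinearEquiv.conj_apply_apply, Module.End.one_apply, LinearEquiv.apply_symm_apply,
    Module.End.one_apply]

theorem tweq_isUnipotentOnInertiaAt {ρ ρ' : GaloisRepAdic A} (h : ρ.IsEquiv ρ') (q : ℕ)
    (hρ : ρ.IsUnipotentOnInertiaAt q) : ρ'.IsUnipotentOnInertiaAt q := by
  obtain ⟨e⟩ := h
  intro P hP σ hσ
  rw [tweq_ρ_eq_conj e, LinearEquiv.charpoly_conj]
  exact hρ P hP σ hσ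

theorem tweq_isStrictOrdinaryAt {ρ ρ' : GaloisRepAdic A} (h : ρ.IsEquiv ρ') (p : ℕ)
    (hρ : ρ.IsStrictOrdinaryAt p) : ρ'.IsStrictOrdinaryAt p := by
  obtain ⟨e⟩ := h
  refine ⟨hρ.1, fun P hP => ?_⟩
  obtain ⟨L, ⟨b, rfl⟩, hD, hI, hS⟩ := hρ.2 P hP
  have hmem : ∀ v ∈ Submodule.span A {b 0},
      e.toLinearEquiv v ∈ Submodule.span A {(b.map e.toLinearEquiv) 0} := by
    intro v hv
    obtain ⟨a, rfl⟩ := Submodule.mem_span_singleton.1 hv
    rw [map_smul, Module.Basis.map_apply]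
    exact Submodule.smul_mem _ _ (Submodule.mem_span_singleton_self _)
  have hmem' : ∀ w ∈ Submodule.span A {(b.map e.toLinearEquiv) 0},
      ∃ v ∈ Submodule.span A {b 0}, e.toLinearEquiv v = w := by
    intro w hw
    obtain ⟨a, rfl⟩ := Submodule.mem_span_singleton.1 hw
    refine ⟨a • b 0, Submodule.smul_mem _ _ (Submodule.mem_span_singleton_self _), ?_⟩
    rw [map_smul, Module.Basis.map_apply]
  refine ⟨Submodule.span A {(b.map e.toLinearEquiv) 0}, ⟨b.map e.toLinearEquiv, rfl⟩, ?_, ?_, ?_⟩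
  · intro σ hσ w hw
    obtain ⟨v, hv, rfl⟩ := hmem' w hw
    rw [← e.map_apply]
    exact hmem _ (hD σ hσ v hv)
  · intro σ hσ w
    obtain ⟨v, rfl⟩ := e.toLinearEquiv.surjective w
    rw [← e.map_apply, ← map_sub]
    exact hmem _ (hI σ hσ v)
  · intro σ hσ
    obtain ⟨x, z, hx, hz, hxz⟩ := hS σ hσ
    refine ⟨x, z, ?_, ?_, hxz⟩
    · intro w hw
      obtain ⟨v, hv, rfl⟩ := hmem' w hw
      rw [← e.map_apply, hx v hv, map_smul]
    · intro w
      obtain ⟨v, rfl⟩ := e.toLinearEquiv.surjective w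
      rw [← e.map_apply, ← map_smul, ← map_sub]
      exact hmem _ (hz v)

theorem tweq_isOrdinaryAt {ρ ρ' : GaloisRepAdic A} (h : ρ.IsEquiv ρ') (p : ℕ)
    (hρ : ρ.IsOrdinaryAt p) : ρ'.IsOrdinaryAt p := by
  obtain ⟨e⟩ := h
  intro P hP
  obtain ⟨L, ⟨b, rfl⟩, hD, hI⟩ := hρ P hP
  have hmem : ∀ v ∈ Submodule.span A {b 0},
      e.toLinearEquiv v ∈ Submodule.span A {(b.map e.toLinearEquiv) 0} := by
    intro v hv
    obtain ⟨a, rfl⟩ := Submodule.mem_span_singleton.1 hv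
    rw [map_smul, Module.Basis.map_apply]
    exact Submodule.smul_mem _ _ (Submodule.mem_span_singleton_self _)
  have hmem' : ∀ w ∈ Submodule.span A {(b.map e.toLinearEquiv) 0},
      ∃ v ∈ Submodule.span A {b 0}, e.toLinearEquiv v = w := by
    intro w hw
    obtain ⟨a, rfl⟩ := Submodule.mem_span_singleton.1 hw
    refine ⟨a • b 0, Submodule.smul_mem _ _ (Submodule.mem_span_singleton_self _), ?_⟩
    rw [map_smul, Module.Basis.map_apply]
  refine ⟨Submodule.span A {(b.map e.toLinearEquiv) 0}, ⟨b.map e.toLinearEquiv, rfl⟩, ?_, ?_⟩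
  · intro σ hσ w hw
    obtain ⟨v, hv, rfl⟩ := hmem' w hw
    rw [← e.map_apply]
    exact hmem _ (hD σ hσ v hv)
  · intro σ hσ w
    obtain ⟨v, rfl⟩ := e.toLinearEquiv.surjective w
    rw [← e.map_apply, ← map_sub]
    exact hmem _ (hI σ hσ v)

/-- the isomorphism `V / I V ≃ V' / I V'` induced by an equivalence -/
noncomputable def tweqQuot {ρ ρ' : GaloisRepAdic A} (e : GaloisRepAdic.Equiv ρ ρ') (I : Ideal A) :
    (ρ.V ⧸ (I • (⊤ : Submodule A ρ.V))) ≃ₗ[A] (ρ'.V ⧸ (I • (⊤ : Submodule A ρ'.V))) :=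
  Submodule.Quotient.equiv _ _ e.toLinearEquiv (by
    rw [Submodule.map_smul'', Submodule.map_top, LinearEquiv.range])

theorem tweqQuot_mk {ρ ρ' : GaloisRepAdic A} (e : GaloisRepAdic.Equiv ρ ρ') (I : Ideal A)
    (v : ρ.V) : tweqQuot e I (Submodule.Quotient.mk v) =
      Submodule.Quotient.mk (e.toLinearEquiv v) := rfl

theorem tweqQuot_levelAction {ρ ρ' : GaloisRepAdic A} (e : GaloisRepAdic.Equiv ρ ρ')
    (I : Ideal A) (σ : AlgebraicClosure ℚ ≃ₐ[ℚ] AlgebraicClosure ℚ)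
    (x : ρ.V ⧸ (I • (⊤ : Submodule A ρ.V))) :
    tweqQuot e I (ρ.levelAction I σ x) = ρ'.levelAction I σ (tweqQuot e I x) := by
  obtain ⟨v, rfl⟩ := Submodule.Quotient.mk_surjective _ x
  show tweqQuot e I (Submodule.Quotient.mk (ρ.ρ σ v)) =
    Submodule.Quotient.mk (ρ'.ρ σ (e.toLinearEquiv v))
  rw [tweqQuot_mk, e.map_apply]

theorem tweq_isFlatAt {ρ ρ' : GaloisRepAdic A} (h : ρ.IsEquiv ρ') (p : ℕ)
    (hρ : ρ.IsFlatAt p) : ρ'.IsFlatAt p := by
  obtain ⟨e⟩ := h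
  refine ⟨hρ.1, fun I hI => ?_⟩
  obtain ⟨H, i1, i2, h1, h2, h3, e₀, he1, he2⟩ := hρ.2 I hI
  refine ⟨H, i1, i2, h1, h2, h3, e₀.trans (tweqQuot e I).toEquiv, ?_, ?_⟩
  · intro f g
    show tweqQuot e I (e₀ (f * g)) = tweqQuot e I (e₀ f) + tweqQuot e I (e₀ g)
    rw [he1, map_add]
  · intro σ f g hfg
    show tweqQuot e I (e₀ g) = _
    rw [he2 σ f g hfg]
    exact tweqQuot_levelAction e I σ (e₀ f)

end Equiv

section EquivConditions

variable (𝒪 : Type) [CommRing 𝒪]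
variable {A : Type} [CommRing A] [IsLocalRing A] [Algebra 𝒪 A]

theorem tweq_strictOrdinaryCondition {ρ ρ' : GaloisRepAdic A} (h : ρ.IsEquiv ρ') (p : ℕ)
    (S : Finset ℕ) (hρ : GaloisRep.strictOrdinaryCondition 𝒪 p S ρ) :
    GaloisRep.strictOrdinaryCondition 𝒪 p S ρ' :=
  ⟨tweq_detIsCyclotomic h p hρ.1, tweq_isStrictOrdinaryAt h p hρ.2.1,
    fun q hq hqS => tweq_isUnramifiedAt h q (hρ.2.2 q hq hqS)⟩

theorem tweq_ordinaryCondition {ρ ρ' : GaloisRepAdic A} (h : ρ.IsEquiv ρ') (p : ℕ)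
    (S : Finset ℕ) (hρ : GaloisRep.ordinaryCondition 𝒪 p S ρ) :
    GaloisRep.ordinaryCondition 𝒪 p S ρ' :=
  ⟨tweq_detIsCyclotomic h p hρ.1, tweq_isOrdinaryAt h p hρ.2.1,
    fun q hq hqS => tweq_isUnramifiedAt h q (hρ.2.2 q hq hqS)⟩

theorem tweq_flatCondition {ρ ρ' : GaloisRepAdic A} (h : ρ.IsEquiv ρ') (p : ℕ)
    (S : Finset ℕ) (hρ : GaloisRep.flatCondition 𝒪 p S ρ) :
    GaloisRep.flatCondition 𝒪 p S ρ' :=
  ⟨tweq_detIsCyclotomic h p hρ.1, tweq_isFlatAt h p hρ.2.1,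
    fun q hq hqS => tweq_isUnramifiedAt h q (hρ.2.2 q hq hqS)⟩

end EquivConditions

section Residual

variable {𝒪 : Type} [CommRing 𝒪] [IsDomain 𝒪] [IsDiscreteValuationRing 𝒪]
  [IsAdicComplete (maximalIdeal 𝒪) 𝒪]
variable {ρbar : ResidualGaloisRep (ResidueField 𝒪)}
  {𝒟 : ∀ ⦃A : Type⦄ [CommRing A] [IsLocalRing A] [Algebra 𝒪 A], GaloisRepAdic A → Prop}

/-- The residue map of the universal ring, as an `𝒪`-algebra map to `k = 𝒪 / 𝔪`. -/
noncomputable def twresPi (DQ : GaloisRep.DeformationRingData 𝒪 ρbar 𝒟) :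
    DQ.R →ₐ[𝒪] ResidueField 𝒪 :=
  { tangentRes (psj_isResAlg DQ.residue_surjective) with
    commutes' := fun c => tangentRes_algebraMap (psj_isResAlg DQ.residue_surjective) c }

theorem twresPi_apply (DQ : GaloisRep.DeformationRingData 𝒪 ρbar 𝒟) (a : DQ.R) :
    twresPi DQ a = tangentRes (psj_isResAlg DQ.residue_surjective) a := rfl

theorem twresPi_surjective (DQ : GaloisRep.DeformationRingData 𝒪 ρbar 𝒟) :
    Function.Surjective (twresPi DQ) := by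
  intro y
  obtain ⟨c, rfl⟩ := IsLocalRing.residue_surjective y
  exact ⟨algebraMap 𝒪 DQ.R c, by rw [twresPi_apply, tangentRes_algebraMap]⟩

theorem twresPi_isLocalHom (DQ : GaloisRep.DeformationRingData 𝒪 ρbar 𝒟) :
    IsLocalHom ((twresPi DQ : DQ.R →ₐ[𝒪] ResidueField 𝒪) : DQ.R →+* ResidueField 𝒪) := by
  refine ⟨fun a ha => ?_⟩
  by_contra hna
  have h1 : a ∈ maximalIdeal DQ.R := (IsLocalRing.mem_maximalIdeal _).2 hna
  have h2 : twresPi DQ a = 0 := by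
    rw [twresPi_apply]
    exact (tangentRes_eq_zero_iff (psj_isResAlg DQ.residue_surjective) a).2 h1
  have h3 : IsUnit (twresPi DQ a) := ha
  rw [h2] at h3
  exact not_isUnit_zero h3

/-- The base change of the universal deformation to the residue field is `ρbar`. -/
theorem twres_isEquiv (DQ : GaloisRep.DeformationRingData 𝒪 ρbar 𝒟) :
    (DQ.ρ.baseChangeAlong ((twresPi DQ : DQ.R →ₐ[𝒪] ResidueField 𝒪) : DQ.R →+* ResidueField 𝒪)
      (twresPi_isLocalHom DQ)).IsEquiv (GaloisRepAdic.ofResidualGaloisRep ρbar) := by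
  obtain ⟨D⟩ := nonempty_rigidDatum (𝒪 := 𝒪) ρbar DQ.absIrr
  obtain ⟨r, hr, hfr, ⟨e⟩⟩ := exists_framed_of_residual_isEquiv (A := DQ.R) D
    (IsLocalRing.ResidueField.map (algebraMap 𝒪 DQ.R)) (fun _ => rfl) DQ.ρ DQ.residual_isEquiv
  have e1 := e.baseChangeAlong ((twresPi DQ : DQ.R →ₐ[𝒪] ResidueField 𝒪) :
    DQ.R →+* ResidueField 𝒪) (twresPi_isLocalHom DQ)
  have e2 := ofMatrixBaseChangeEquiv ((twresPi DQ : DQ.R →ₐ[𝒪] ResidueField 𝒪) :
    DQ.R →+* ResidueField 𝒪) (twresPi_isLocalHom DQ) r hr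
  have hmap : mapRep ((twresPi DQ : DQ.R →ₐ[𝒪] ResidueField 𝒪) : DQ.R →+* ResidueField 𝒪) r =
      D.ρm := by
    ext σ i j
    obtain ⟨x, hx⟩ := IsLocalRing.residue_surjective (D.ρm σ i j)
    have h1 := hfr σ i j x hx
    rw [mapRep_apply]
    show tangentRes (psj_isResAlg DQ.residue_surjective) (r σ i j) = _
    rw [tangentRes_eq_of_sub_mem _ h1, hx]
  have e3 : GaloisRepAdic.Equiv (GaloisRepAdic.ofResidualGaloisRep ρbar)
      (ofMatrix D.ρm (matCont_bar D)) :=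
    { toLinearEquiv := D.b.equivFun
      map_apply := fun σ x => by
        show D.b.equivFun (ρbar.ρ σ x) = (D.ρm σ).mulVec (D.b.equivFun x)
        rw [D.ρm_eq]
        exact (LinearMap.toMatrix_mulVec_repr D.b D.b (ρbar.ρ σ) x).symm }
  have e4 : GaloisRepAdic.Equiv
      (ofMatrix (mapRep ((twresPi DQ : DQ.R →ₐ[𝒪] ResidueField 𝒪) : DQ.R →+* ResidueField 𝒪) r)
        (hr.map _ (twresPi_isLocalHom DQ))) (ofMatrix D.ρm (matCont_bar D)) := by
    have : ∀ (r' : Gal →* M2 (ResidueField 𝒪)) (hr' : MatCont (ResidueField 𝒪) r'),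
        r' = D.ρm → Nonempty (GaloisRepAdic.Equiv (ofMatrix r' hr')
          (ofMatrix D.ρm (matCont_bar D))) := by
      intro r' hr' h
      subst h
      exact ⟨GaloisRepAdic.Equiv.refl _⟩
    exact (this _ _ hmap).some
  exact ⟨(e1.trans e2).trans (e4.trans e3.symm)⟩

/-- **TW-res, general form.** -/
theorem twres_of (DQ : GaloisRep.DeformationRingData 𝒪 ρbar 𝒟)
    (hbc : ∀ (q : DQ.R →ₐ[𝒪] ResidueField 𝒪) (hq : IsLocalHom (q : DQ.R →+* ResidueField 𝒪)),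
      Function.Surjective q → 𝒟 (DQ.ρ.baseChangeAlong (q : DQ.R →+* ResidueField 𝒪) hq))
    (heq : ∀ ρ ρ' : GaloisRepAdic (ResidueField 𝒪), ρ.IsEquiv ρ' → 𝒟 ρ → 𝒟 ρ') :
    𝒟 (GaloisRepAdic.ofResidualGaloisRep ρbar) :=
  heq _ _ (twres_isEquiv DQ) (hbc (twresPi DQ) (twresPi_isLocalHom DQ) (twresPi_surjective DQ))

/-- **TW-res, ordinary case.** If a universal ring for the strictly ordinary condition of S56
exists, then `ρbar` satisfies the condition. -/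
theorem twres_ord (p : ℕ) (S' Smin : Finset ℕ)
    (DQ : GaloisRep.DeformationRingData 𝒪 ρbar (fun _A _ _ _ ρ =>
      GaloisRep.strictOrdinaryCondition 𝒪 p S' ρ ∧
        ∀ q ∈ Smin, q.Prime → q ≠ p → ρ.IsUnipotentOnInertiaAt q)) :
    GaloisRep.strictOrdinaryCondition 𝒪 p S' (GaloisRepAdic.ofResidualGaloisRep ρbar) ∧
      ∀ q ∈ Smin, q.Prime → q ≠ p →
        (GaloisRepAdic.ofResidualGaloisRep ρbar).IsUnipotentOnInertiaAt q := by
  refine twres_of DQ ?_ ?_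
  · intro q hq _
    exact ⟨twbc_strictOrdinaryCondition 𝒪 _ hq p S' DQ.ρ DQ.isOfType.1,
      fun l hl hlp hlne => twbc_isUnipotentOnInertiaAt _ hq DQ.ρ l (DQ.isOfType.2 l hl hlp hlne)⟩
  · intro ρ ρ' h hρ
    exact ⟨tweq_strictOrdinaryCondition 𝒪 h p S' hρ.1,
      fun l hl hlp hlne => tweq_isUnipotentOnInertiaAt h l (hρ.2 l hl hlp hlne)⟩

/-- **TW-res, flat case.** -/
theorem twres_flat (p : ℕ) (S' Smin : Finset ℕ)
    (DQ : GaloisRep.DeformationRingData 𝒪 ρbar (fun _A _ _ _ ρ =>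
      GaloisRep.flatCondition 𝒪 p S' ρ ∧
        ∀ q ∈ Smin, q.Prime → q ≠ p → ρ.IsUnipotentOnInertiaAt q)) :
    GaloisRep.flatCondition 𝒪 p S' (GaloisRepAdic.ofResidualGaloisRep ρbar) ∧
      ∀ q ∈ Smin, q.Prime → q ≠ p →
        (GaloisRepAdic.ofResidualGaloisRep ρbar).IsUnipotentOnInertiaAt q := by
  refine twres_of DQ ?_ ?_
  · intro q hq hsurj
    exact ⟨twbc_flatCondition 𝒪 _ hq hsurj p S' DQ.ρ DQ.isOfType.1,
      fun l hl hlp hlne => twbc_isUnipotentOnInertiaAt _ hq DQ.ρ l (DQ.isOfType.2 l hl hlp hlne)⟩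
  · intro ρ ρ' h hρ
    exact ⟨tweq_flatCondition 𝒪 h p S' hρ.1,
      fun l hl hlp hlne => tweq_isUnipotentOnInertiaAt h l (hρ.2 l hl hlp hlne)⟩

end Residual

end Fermat.Agent.TW
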