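/-
S56 (Taylor–Wiles primes), piece **TW-alg** (helper26): the commutative algebra step.

`R` a complete Noetherian local `𝒪`-algebra with residue field covered by `𝒪` (`𝒪` complete local).
* `psjEval I y hy : 𝒪⟦X⟧ →ₐ[𝒪] R`, `X i ↦ y i`, for `y i ∈ I`, `R` `I`-adically complete;
* `psj_surjective`: if `𝔪_R ≤ (y) + 𝔪_𝒪 R + 𝔪_R²` then every `γ : 𝒪⟦X⟧ →ₐ[𝒪] R` with `γ (X i) = y i`
  is surjective;
* `psj_exists_surjective_of_finrank_le`: if the relative cotangent space
  `𝔪_R / (𝔪_R² + 𝔪_𝒪 R)` (`S53.TangentCot`) has dimension `≤ r`, there is a surjection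
  `𝒪⟦X₁,…,X_r⟧ ↠ R`;
* `psj_exists_surjective_of_card_le`: the same if `R` has at most `|k|^r` tangent vectors
  `R → k[ε]` (`S53.TangentHom`), `k` finite.
-/
import Mathlib
import Fermat.Agent.S53.PowerSeries
import Fermat.Agent.S53.Tangent

set_option autoImplicit false
set_option linter.unusedSectionVars false
set_option linter.style.haveILetI false

namespace Fermat.Agent.TW

open IsLocalRing MvPowerSeries Fermat.Agent.S53

section Eval

variable {𝒪 : Type*} [CommRing 𝒪] {R : Type*} [CommRing R] [Algebra 𝒪 R]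
variable {σ : Type*} [Finite σ]

/-- The images of `y i ∈ I` in `R ⧸ I ^ n` are nilpotent. -/
theorem psj_isNilpotent_mk (I : Ideal R) (y : σ → R) (hy : ∀ i, y i ∈ I) (n : ℕ) (i : σ) :
    IsNilpotent (Ideal.Quotient.mk (I ^ n) (y i)) :=
  ⟨n, by rw [← map_pow, Ideal.Quotient.eq_zero_iff_mem]; exact Ideal.pow_mem_pow (hy i) n⟩

/-- Compatibility of the evaluations modulo `I ^ n`. -/
theorem psj_compat (𝒪 : Type*) [CommRing 𝒪] {R : Type*} [CommRing R] [Algebra 𝒪 R]
    {σ : Type*} [Finite σ] (I : Ideal R) (y : σ → R) (hy : ∀ i, y i ∈ I) {m n : ℕ}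
    (hle : m ≤ n) :
    (Ideal.Quotient.factorₐ 𝒪 (Ideal.pow_le_pow_right hle)).comp
        (evNilp 𝒪 (fun i => Ideal.Quotient.mk (I ^ n) (y i)) (psj_isNilpotent_mk I y hy n)) =
      evNilp 𝒪 (fun i => Ideal.Quotient.mk (I ^ m) (y i)) (psj_isNilpotent_mk I y hy m) := by
  refine mvPowerSeries_algHom_ext_of_isNilpotent _ _ ?_ ?_
  · intro i
    have h : ((Ideal.Quotient.factorₐ 𝒪 (Ideal.pow_le_pow_right hle)).comp
        (evNilp 𝒪 (fun i => Ideal.Quotient.mk (I ^ n) (y i))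
          (psj_isNilpotent_mk I y hy n))) (X i) = Ideal.Quotient.mk (I ^ m) (y i) := by
      rw [AlgHom.comp_apply, evNilp_X]
      rfl
    rw [h]
    exact psj_isNilpotent_mk I y hy m i
  · intro i
    rw [AlgHom.comp_apply, evNilp_X, evNilp_X]
    rfl

/-- Evaluation of power series at elements `y i ∈ I` of an `I`-adically complete ring. -/
noncomputable def psjEval (𝒪 : Type*) [CommRing 𝒪] {R : Type*} [CommRing R] [Algebra 𝒪 R]
    {σ : Type*} [Finite σ] (I : Ideal R) [IsAdicComplete I R] (y : σ → R)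
    (hy : ∀ i, y i ∈ I) : MvPowerSeries σ 𝒪 →ₐ[𝒪] R :=
  IsAdicComplete.liftAlgHom I
    (fun n => evNilp 𝒪 (fun i => Ideal.Quotient.mk (I ^ n) (y i)) (psj_isNilpotent_mk I y hy n))
    (fun hle => psj_compat 𝒪 I y hy hle)

theorem psjEval_mk (I : Ideal R) [IsAdicComplete I R] (y : σ → R) (hy : ∀ i, y i ∈ I) (n : ℕ)
    (f : MvPowerSeries σ 𝒪) :
    Ideal.Quotient.mk (I ^ n) (psjEval 𝒪 I y hy f) =
      evNilp 𝒪 (fun i => Ideal.Quotient.mk (I ^ n) (y i)) (psj_isNilpotent_mk I y hy n) f :=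
  IsAdicComplete.mk_liftAlgHom I
    (fun n => evNilp 𝒪 (fun i => Ideal.Quotient.mk (I ^ n) (y i)) (psj_isNilpotent_mk I y hy n))
    (fun hle => psj_compat 𝒪 I y hy hle) n f

theorem psjEval_X (I : Ideal R) [IsAdicComplete I R] (y : σ → R) (hy : ∀ i, y i ∈ I) (i : σ) :
    psjEval 𝒪 I y hy (X i) = y i := by
  rw [← sub_eq_zero]
  refine IsHausdorff.haus (IsAdicComplete.toIsHausdorff (I := I) (M := R)) _ fun n => ?_
  rw [SModEq.sub_mem, sub_zero, smul_eq_mul, Ideal.mul_top, ← Ideal.Quotient.eq, psjEval_mk,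
    evNilp_X]

/-- Existence form. -/
theorem psj_exists_algHom (I : Ideal R) [IsAdicComplete I R] (y : σ → R) (hy : ∀ i, y i ∈ I) :
    ∃ γ : MvPowerSeries σ 𝒪 →ₐ[𝒪] R, ∀ i, γ (X i) = y i :=
  ⟨psjEval 𝒪 I y hy, psjEval_X I y hy⟩

end Eval

section Surj

variable {𝒪 : Type*} [CommRing 𝒪] [IsLocalRing 𝒪]
variable {R : Type*} [CommRing R] [IsLocalRing R] [Algebra 𝒪 R]
variable {σ : Type*} [Finite σ]

/-- If `𝒪 → R / 𝔪_R` is onto, then `𝔪_𝒪` maps into `𝔪_R`. -/
theorem psj_algebraMap_mem (hres : Function.Surjective (residue R ∘ algebraMap 𝒪 R)) {c : 𝒪}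
    (hc : c ∈ maximalIdeal 𝒪) : algebraMap 𝒪 R c ∈ maximalIdeal R := by
  by_contra hnot
  have hu : IsUnit (algebraMap 𝒪 R c) := by
    by_contra h
    exact hnot ((IsLocalRing.mem_maximalIdeal _).2 h)
  -- the kernel of `𝒪 → k_R` is a maximal ideal, so it is `𝔪_𝒪`
  let φ : 𝒪 →+* ResidueField R := (residue R).comp (algebraMap 𝒪 R)
  have hφ : Function.Surjective φ := hres
  have hker : (RingHom.ker φ).IsMaximal := RingHom.ker_isMaximal_of_surjective φ hφ
  have hle : RingHom.ker φ = maximalIdeal 𝒪 := IsLocalRing.eq_maximalIdeal hker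
  have hcφ : φ c = 0 := by
    have : c ∈ RingHom.ker φ := hle ▸ hc
    exact this
  have hcu : IsUnit (φ c) := (hu.map (residue R))
  rw [hcφ] at hcu
  exact not_isUnit_zero hcu

theorem psj_map_le (hres : Function.Surjective (residue R ∘ algebraMap 𝒪 R)) :
    (maximalIdeal 𝒪).map (algebraMap 𝒪 R) ≤ maximalIdeal R := by
  rw [Ideal.map_le_iff_le_comap]
  intro c hc
  exact psj_algebraMap_mem hres hc

/-- Every element of `R` is congruent to an element of `𝒪` modulo `𝔪_R`. -/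
theorem psj_exists_sub_mem (hres : Function.Surjective (residue R ∘ algebraMap 𝒪 R)) (x : R) :
    ∃ c : 𝒪, x - algebraMap 𝒪 R c ∈ maximalIdeal R := by
  obtain ⟨c, hc⟩ := hres (residue R x)
  refine ⟨c, ?_⟩
  rw [← Ideal.Quotient.eq]
  exact hc.symm

variable [IsNoetherianRing R]

/-- Nakayama: generators of `𝔪_R` modulo `𝔪_R²`. -/
theorem psj_maximalIdeal_le (y : σ → R)
    (hgen : maximalIdeal R ≤ Ideal.span (Set.range y) ⊔ (maximalIdeal 𝒪).map (algebraMap 𝒪 R) ⊔
      maximalIdeal R ^ 2) :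
    maximalIdeal R ≤ Ideal.span (Set.range y) ⊔ (maximalIdeal 𝒪).map (algebraMap 𝒪 R) := by
  refine Submodule.le_of_le_smul_of_le_jacobson_bot (I := maximalIdeal R)
    (IsNoetherian.noetherian _) ?_ ?_
  · rw [IsLocalRing.jacobson_eq_maximalIdeal ⊥ bot_ne_top]
  · rw [smul_eq_mul, ← pow_two]
    exact hgen

variable [IsAdicComplete (maximalIdeal 𝒪) 𝒪]

/-- `𝒪 → R ⧸ (y)` is onto. -/
theorem psj_surjective_mk_algebraMap (hres : Function.Surjective (residue R ∘ algebraMap 𝒪 R))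
    (y : σ → R)
    (hgen : maximalIdeal R ≤ Ideal.span (Set.range y) ⊔ (maximalIdeal 𝒪).map (algebraMap 𝒪 R) ⊔
      maximalIdeal R ^ 2) :
    Function.Surjective
      ((Ideal.Quotient.mk (Ideal.span (Set.range y))).comp (algebraMap 𝒪 R)) := by
  set 𝔞 : Ideal R := Ideal.span (Set.range y) with h𝔞
  set 𝔭 : Ideal R := (maximalIdeal 𝒪).map (algebraMap 𝒪 R) with h𝔭
  have hnak := psj_maximalIdeal_le y hgen
  set f : 𝒪 →+* R ⧸ 𝔞 := (Ideal.Quotient.mk 𝔞).comp (algebraMap 𝒪 R) with hf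
  have hmap : (maximalIdeal 𝒪).map f = 𝔭.map (Ideal.Quotient.mk 𝔞) := by
    rw [hf, ← Ideal.map_map]
  have h1 : IsHausdorff 𝔭 (R ⧸ 𝔞) := by
    refine IsHausdorff.of_le_jacobson 𝔭 (R ⧸ 𝔞) ?_
    rw [IsLocalRing.jacobson_eq_maximalIdeal ⊥ bot_ne_top]
    exact psj_map_le hres
  have h2 : IsHausdorff (𝔭.map (algebraMap R (R ⧸ 𝔞))) (R ⧸ 𝔞) :=
    (IsHausdorff.map_algebraMap_iff (R := R) (S := R ⧸ 𝔞) (M := R ⧸ 𝔞) (I := 𝔭)).2 h1
  haveI haus : IsHausdorff ((maximalIdeal 𝒪).map f) (R ⧸ 𝔞) := by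
    rw [hmap]
    exact h2
  refine surjective_of_mk_map_comp_surjective (I := maximalIdeal 𝒪) f ?_
  intro z
  obtain ⟨z', rfl⟩ := Ideal.Quotient.mk_surjective z
  obtain ⟨x, rfl⟩ := Ideal.Quotient.mk_surjective z'
  obtain ⟨c, hc⟩ := psj_exists_sub_mem hres x
  refine ⟨c, ?_⟩
  rw [RingHom.comp_apply, Ideal.Quotient.eq, hf, RingHom.comp_apply, ← map_sub, hmap]
  have hmem : algebraMap 𝒪 R c - x ∈ 𝔞 ⊔ 𝔭 := by
    have := hnak hc
    rw [← neg_sub]
    exact (𝔞 ⊔ 𝔭).neg_mem this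
  obtain ⟨a, ha, b, hb, hab⟩ := Submodule.mem_sup.1 hmem
  rw [← hab, map_add, Ideal.Quotient.eq_zero_iff_mem.2 ha, zero_add]
  exact Ideal.mem_map_of_mem _ hb

/-- **TW-alg, generator form.** A power series evaluation `γ : 𝒪⟦X⟧ → R`, `X i ↦ y i`, is onto as
soon as the `y i` generate `𝔪_R` modulo `𝔪_𝒪 R + 𝔪_R²`. -/
theorem psj_surjective (hres : Function.Surjective (residue R ∘ algebraMap 𝒪 R))
    (y : σ → R) (hy : ∀ i, y i ∈ maximalIdeal R)
    (hgen : maximalIdeal R ≤ Ideal.span (Set.range y) ⊔ (maximalIdeal 𝒪).map (algebraMap 𝒪 R) ⊔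
      maximalIdeal R ^ 2)
    (γ : MvPowerSeries σ 𝒪 →ₐ[𝒪] R) (hγ : ∀ i, γ (X i) = y i) : Function.Surjective γ := by
  set 𝔞 : Ideal R := Ideal.span (Set.range y) with h𝔞
  set xI : Ideal (MvPowerSeries σ 𝒪) := Ideal.span (Set.range X) with hxI
  have hmap : xI.map (γ : MvPowerSeries σ 𝒪 →+* R) = 𝔞 := by
    rw [hxI, Ideal.map_span, h𝔞]
    congr 1
    ext z
    constructor
    · rintro ⟨_, ⟨i, rfl⟩, rfl⟩
      exact ⟨i, (hγ i).symm⟩
    · rintro ⟨i, rfl⟩
      exact ⟨X i, ⟨i, rfl⟩, hγ i⟩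
  have h𝔞le : 𝔞 ≤ maximalIdeal R := by
    rw [h𝔞, Ideal.span_le]
    rintro _ ⟨i, rfl⟩
    exact hy i
  haveI haus : IsHausdorff (xI.map (γ : MvPowerSeries σ 𝒪 →+* R)) R := by
    rw [hmap]
    refine IsHausdorff.of_le_jacobson 𝔞 R ?_
    rw [IsLocalRing.jacobson_eq_maximalIdeal ⊥ bot_ne_top]
    exact h𝔞le
  have hsurj : Function.Surjective (γ : MvPowerSeries σ 𝒪 →+* R) := by
    refine surjective_of_mk_map_comp_surjective (I := xI) (γ : MvPowerSeries σ 𝒪 →+* R) ?_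
    intro z
    obtain ⟨x, rfl⟩ := Ideal.Quotient.mk_surjective z
    obtain ⟨c, hc⟩ := psj_surjective_mk_algebraMap hres y hgen (Ideal.Quotient.mk 𝔞 x)
    refine ⟨algebraMap 𝒪 (MvPowerSeries σ 𝒪) c, ?_⟩
    rw [RingHom.comp_apply, Ideal.Quotient.eq, hmap]
    have h1 : (γ : MvPowerSeries σ 𝒪 →+* R) (algebraMap 𝒪 (MvPowerSeries σ 𝒪) c) =
        algebraMap 𝒪 R c := γ.commutes c
    rw [h1, ← Ideal.Quotient.eq]
    exact hc
  exact hsurj

/-- **TW-alg, existence form.** -/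
theorem psj_exists_surjective [IsAdicComplete (maximalIdeal R) R]
    (hres : Function.Surjective (residue R ∘ algebraMap 𝒪 R))
    (y : σ → R) (hy : ∀ i, y i ∈ maximalIdeal R)
    (hgen : maximalIdeal R ≤ Ideal.span (Set.range y) ⊔ (maximalIdeal 𝒪).map (algebraMap 𝒪 R) ⊔
      maximalIdeal R ^ 2) :
    ∃ γ : MvPowerSeries σ 𝒪 →ₐ[𝒪] R, (∀ i, γ (X i) = y i) ∧ Function.Surjective γ :=
  ⟨psjEval 𝒪 (maximalIdeal R) y hy, psjEval_X _ y hy,
    psj_surjective hres y hy hgen _ (psjEval_X _ y hy)⟩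

end Surj

section Tangent

variable {𝒪 : Type} [CommRing 𝒪] [IsLocalRing 𝒪]
variable {R : Type} [CommRing R] [IsLocalRing R] [Algebra 𝒪 R]

/-- `IsResAlg` from the surjectivity of `𝒪 → R / 𝔪_R`. -/
theorem psj_isResAlg (hres : Function.Surjective (residue R ∘ algebraMap 𝒪 R)) :
    IsResAlg 𝒪 R where
  isLocalHom := ⟨fun c hc => by
    by_contra h
    have h1 : c ∈ maximalIdeal 𝒪 := (IsLocalRing.mem_maximalIdeal _).2 h
    exact (IsLocalRing.mem_maximalIdeal _).1 (psj_algebraMap_mem hres h1) hc⟩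
  residue_surjective := hres

instance psj_isScalarTower : IsScalarTower 𝒪 (ResidueField 𝒪) (TangentCot 𝒪 R) :=
  IsScalarTower.of_algebraMap_smul fun c v => tangentCot_residue_smul c v

/-- The `k`-span of the classes of a family `y` is the image of the `𝒪`-span. -/
theorem psj_mem_span_iff {ι : Type} (y : ι → R) (v : TangentCot 𝒪 R) :
    v ∈ Submodule.span (ResidueField 𝒪) (Set.range fun i => tangentMk 𝒪 R (y i)) ↔
      v ∈ Submodule.span 𝒪 (Set.range fun i => tangentMk 𝒪 R (y i)) := by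
  rw [← Submodule.restrictScalars_span 𝒪 (ResidueField 𝒪)
    (IsLocalRing.residue_surjective (R := 𝒪))]
  rfl

/-- An element of the `𝒪`-span of the classes of the `y i` is the class of an element of the
ideal generated by the `y i`. -/
theorem psj_exists_of_mem_span {ι : Type} (y : ι → R) (v : TangentCot 𝒪 R)
    (hv : v ∈ Submodule.span 𝒪 (Set.range fun i => tangentMk 𝒪 R (y i))) :
    ∃ a ∈ Ideal.span (Set.range y), tangentMk 𝒪 R a = v := by
  induction hv using Submodule.span_induction with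
  | mem x hx =>
    obtain ⟨i, rfl⟩ := hx
    exact ⟨y i, Ideal.subset_span ⟨i, rfl⟩, rfl⟩
  | zero => exact ⟨0, Ideal.zero_mem _, map_zero _⟩
  | add x z _ _ hx hz =>
    obtain ⟨a, ha, rfl⟩ := hx
    obtain ⟨b, hb, rfl⟩ := hz
    exact ⟨a + b, Ideal.add_mem _ ha hb, map_add _ _ _⟩
  | smul c x _ hx =>
    obtain ⟨a, ha, rfl⟩ := hx
    refine ⟨c • a, ?_, map_smul _ _ _⟩
    rw [Algebra.smul_def]
    exact Ideal.mul_mem_left _ _ ha

/-- If the classes of the `y i ∈ 𝔪_R` span the relative cotangent space, then the `y i` generate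
`𝔪_R` modulo `𝔪_𝒪 R + 𝔪_R²`. -/
theorem psj_gen_of_span_eq_top (hres : Function.Surjective (residue R ∘ algebraMap 𝒪 R))
    {ι : Type} (y : ι → R) (hy : ∀ i, y i ∈ maximalIdeal R)
    (hspan : Submodule.span (ResidueField 𝒪) (Set.range fun i => tangentMk 𝒪 R (y i)) = ⊤) :
    maximalIdeal R ≤ Ideal.span (Set.range y) ⊔ (maximalIdeal 𝒪).map (algebraMap 𝒪 R) ⊔
      maximalIdeal R ^ 2 := by
  have hA := psj_isResAlg hres
  intro x hx
  have hv : tangentMk 𝒪 R x ∈
      Submodule.span (ResidueField 𝒪) (Set.range fun i => tangentMk 𝒪 R (y i)) := by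
    rw [hspan]; exact Submodule.mem_top
  rw [psj_mem_span_iff] at hv
  obtain ⟨a, ha, hax⟩ := psj_exists_of_mem_span y _ hv
  have h0 : tangentMk 𝒪 R (x - a) = 0 := by rw [map_sub, hax, sub_self]
  rw [tangentMk_eq_zero_iff] at h0
  obtain ⟨u, hu, z, hz, huz⟩ := Submodule.mem_sup.1 h0
  obtain ⟨c, rfl⟩ := hz
  have hu' : u ∈ maximalIdeal R ^ 2 ⊔ Ideal.map (algebraMap 𝒪 R) (maximalIdeal 𝒪) := hu
  have hale : Ideal.span (Set.range y) ≤ maximalIdeal R := by
    rw [Ideal.span_le]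
    rintro _ ⟨i, rfl⟩
    exact hy i
  have hule : maximalIdeal R ^ 2 ⊔ Ideal.map (algebraMap 𝒪 R) (maximalIdeal 𝒪) ≤
      maximalIdeal R :=
    sup_le (Ideal.pow_le_self (by norm_num)) (psj_map_le hres)
  -- `c • 1 ∈ 𝔪_R`, hence `c ∈ 𝔪_𝒪`
  have hc1 : algebraMap 𝒪 R c = x - a - u := by
    have : (Algebra.linearMap 𝒪 R) c = algebraMap 𝒪 R c := rfl
    rw [this] at huz
    linear_combination huz
  have hcm : algebraMap 𝒪 R c ∈ maximalIdeal R := by
    rw [hc1]
    exact Ideal.sub_mem _ (Ideal.sub_mem _ hx (hale ha)) (hule hu')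
  have hc : c ∈ maximalIdeal 𝒪 := (tangent_algebraMap_mem_iff hA c).1 hcm
  have hx' : x = a + u + algebraMap 𝒪 R c := by rw [hc1]; ring
  rw [hx']
  obtain ⟨e, he, f, hf, rfl⟩ := Submodule.mem_sup.1 hu'
  have h1 : a ∈ Ideal.span (Set.range y) ⊔ (maximalIdeal 𝒪).map (algebraMap 𝒪 R) ⊔
      maximalIdeal R ^ 2 := Ideal.mem_sup_left (Ideal.mem_sup_left ha)
  have h2 : e ∈ Ideal.span (Set.range y) ⊔ (maximalIdeal 𝒪).map (algebraMap 𝒪 R) ⊔
      maximalIdeal R ^ 2 := Ideal.mem_sup_right he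
  have h3 : f ∈ Ideal.span (Set.range y) ⊔ (maximalIdeal 𝒪).map (algebraMap 𝒪 R) ⊔
      maximalIdeal R ^ 2 := Ideal.mem_sup_left (Ideal.mem_sup_right hf)
  have h4 : algebraMap 𝒪 R c ∈ Ideal.span (Set.range y) ⊔
      (maximalIdeal 𝒪).map (algebraMap 𝒪 R) ⊔ maximalIdeal R ^ 2 :=
    Ideal.mem_sup_left (Ideal.mem_sup_right (Ideal.mem_map_of_mem _ hc))
  exact Ideal.add_mem _ (Ideal.add_mem _ h1 (Ideal.add_mem _ h2 h3)) h4

variable [IsNoetherianRing R]

/-- The relative cotangent space of a Noetherian local `𝒪`-algebra with residue field `k` is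
finite dimensional over `k`. -/
theorem psj_finite_tangentCot (hres : Function.Surjective (residue R ∘ algebraMap 𝒪 R)) :
    Module.Finite (ResidueField 𝒪) (TangentCot 𝒪 R) := by
  classical
  have hA := psj_isResAlg hres
  obtain ⟨s, hs⟩ : (maximalIdeal R).FG := IsNoetherian.noetherian _
  refine ⟨⟨s.image (tangentMk 𝒪 R), ?_⟩⟩
  rw [eq_top_iff]
  rintro v -
  obtain ⟨a, ha, rfl⟩ := tangent_exists_rep hA v
  rw [← hs] at ha
  have key : ∀ m ∈ Ideal.span (s : Set R), tangentMk 𝒪 R m ∈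
      Submodule.span (ResidueField 𝒪) ((s.image (tangentMk 𝒪 R) : Finset _) : Set _) := by
    intro m hm
    induction hm using Submodule.span_induction with
    | mem x hx =>
      refine Submodule.subset_span ?_
      rw [Finset.coe_image]
      exact ⟨x, hx, rfl⟩
    | zero => rw [map_zero]; exact Submodule.zero_mem _
    | add x z _ _ hx hz => rw [map_add]; exact Submodule.add_mem _ hx hz
    | smul c x hxs hx =>
      have hxm : x ∈ maximalIdeal R := by
        rw [← hs]; exact hxs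
      rw [smul_eq_mul, tangentMk_mul hA, (tangentRes_eq_zero_iff hA x).2 hxm, zero_smul,
        add_zero]
      exact Submodule.smul_mem _ _ hx
  exact key a ha

variable [IsAdicComplete (maximalIdeal 𝒪) 𝒪] [IsAdicComplete (maximalIdeal R) R]

/-- **TW-alg, dimension form.** If the relative cotangent space `𝔪_R / (𝔪_R² + 𝔪_𝒪 R)` has
dimension at most `r` over `k`, then `R` is a quotient of `𝒪⟦X₁, …, X_r⟧`. -/
theorem psj_exists_surjective_of_finrank_le
    (hres : Function.Surjective (residue R ∘ algebraMap 𝒪 R)) (r : ℕ)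
    (hr : Module.finrank (ResidueField 𝒪) (TangentCot 𝒪 R) ≤ r) :
    ∃ γ : MvPowerSeries (Fin r) 𝒪 →ₐ[𝒪] R, Function.Surjective γ := by
  have hA := psj_isResAlg hres
  haveI := psj_finite_tangentCot (𝒪 := 𝒪) (R := R) hres
  set d := Module.finrank (ResidueField 𝒪) (TangentCot 𝒪 R) with hd
  let b := Module.finBasis (ResidueField 𝒪) (TangentCot 𝒪 R)
  let v : Fin r → TangentCot 𝒪 R := fun i => if h : i.val < d then b ⟨i.val, h⟩ else 0
  choose rep hrep hrep' using tangent_exists_rep (𝒪 := 𝒪) (A := R) hA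
  let y : Fin r → R := fun i => rep (v i)
  have hy : ∀ i, y i ∈ maximalIdeal R := fun i => hrep _
  have hspan : Submodule.span (ResidueField 𝒪) (Set.range fun i => tangentMk 𝒪 R (y i)) = ⊤ := by
    rw [eq_top_iff, ← b.span_eq, Submodule.span_le]
    rintro _ ⟨j, rfl⟩
    refine Submodule.subset_span ⟨⟨j.val, lt_of_lt_of_le j.2 hr⟩, ?_⟩
    show tangentMk 𝒪 R (rep (v ⟨j.val, _⟩)) = b j
    rw [hrep']
    show (if h : j.val < d then b ⟨j.val, h⟩ else 0) = b j
    rw [dif_pos j.2]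
  obtain ⟨γ, -, hγ⟩ := psj_exists_surjective (𝒪 := 𝒪) hres y hy
    (psj_gen_of_span_eq_top hres y hy hspan)
  exact ⟨γ, hγ⟩

end Tangent

section Card

variable {𝒪 : Type} [CommRing 𝒪] [IsLocalRing 𝒪]
variable {R : Type} [CommRing R] [IsLocalRing R] [Algebra 𝒪 R]

/-- A tangent vector `u : R → k[ε]` maps `𝔪_R` into `ε k`. -/
theorem psj_fst_eq_zero (u : TangentHom 𝒪 R) {m : R} (hm : m ∈ maximalIdeal R) :
    (u.1 m).fst = 0 := by
  by_contra h
  obtain ⟨c, hc⟩ := IsLocalRing.residue_surjective (R := 𝒪) (u.1 m).fst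
  have hcu : IsUnit c := by
    by_contra hcn
    have : residue 𝒪 c = 0 := (residue_eq_zero_iff c).2 ((IsLocalRing.mem_maximalIdeal _).2 hcn)
    exact h (hc ▸ this)
  have hxu : IsUnit (m - algebraMap 𝒪 R c) := by
    by_contra hxn
    have hx : m - algebraMap 𝒪 R c ∈ maximalIdeal R := (IsLocalRing.mem_maximalIdeal _).2 hxn
    have : algebraMap 𝒪 R c ∈ maximalIdeal R := by
      have := Ideal.sub_mem _ hm hx
      simpa using this
    exact (IsLocalRing.mem_maximalIdeal _).1 this (hcu.map (algebraMap 𝒪 R))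
  have h1 : IsUnit ((u.1 (m - algebraMap 𝒪 R c)).fst) :=
    (hxu.map u.1).map (TrivSqZeroExt.fstHom (ResidueField 𝒪) (ResidueField 𝒪) (ResidueField 𝒪))
  have h2 : (u.1 (m - algebraMap 𝒪 R c)).fst = 0 := by
    rw [map_sub, u.2 c, TrivSqZeroExt.fst_sub, TrivSqZeroExt.fst_inl, hc, sub_self]
  rw [h2] at h1
  exact not_isUnit_zero h1

/-- The first component of a tangent vector is the residue map. -/
theorem psj_fst_eq (hres : Function.Surjective (residue R ∘ algebraMap 𝒪 R))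
    (u : TangentHom 𝒪 R) (a : R) : (u.1 a).fst = tangentRes (psj_isResAlg hres) a := by
  obtain ⟨c, hc⟩ := psj_exists_sub_mem hres a
  rw [tangentRes_eq_of_sub_mem (psj_isResAlg hres) hc]
  have h := psj_fst_eq_zero u hc
  rw [map_sub, u.2 c, TrivSqZeroExt.fst_sub, TrivSqZeroExt.fst_inl, sub_eq_zero] at h
  exact h

variable [IsNoetherianRing R] [Finite (ResidueField 𝒪)]

/-- A Noetherian local `𝒪`-algebra with finite residue field `k` has finitely many tangent
vectors `R → k[ε]`. -/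
theorem psj_finite_tangentHom (hres : Function.Surjective (residue R ∘ algebraMap 𝒪 R)) :
    Finite (TangentHom 𝒪 R) := by
  obtain ⟨s, hs⟩ : (maximalIdeal R).FG := IsNoetherian.noetherian _
  haveI := tangent_finite_dualNumber (ResidueField 𝒪)
  let Φ : TangentHom 𝒪 R → (s → DualNumber (ResidueField 𝒪)) := fun u g => u.1 g
  refine Finite.of_injective Φ ?_
  intro u u' huu'
  have hs' : ∀ g ∈ s, u.1 g = u'.1 g := fun g hg => congrFun huu' ⟨g, hg⟩
  have hm : ∀ m ∈ Ideal.span (s : Set R), u.1 m = u'.1 m := by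
    intro m hm
    induction hm using Submodule.span_induction with
    | mem x hx => exact hs' x hx
    | zero => rw [map_zero, map_zero]
    | add x z _ _ hx hz => rw [map_add, map_add, hx, hz]
    | smul c x hxs hx =>
      have hxm : x ∈ maximalIdeal R := by rw [← hs]; exact hxs
      rw [smul_eq_mul, map_mul, map_mul, ← hx]
      have h0 := psj_fst_eq_zero u hxm
      have hc : (u.1 c).fst = (u'.1 c).fst := by rw [psj_fst_eq hres, psj_fst_eq hres]
      ext
      · simp [h0]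
      · simp [h0, hc]
  apply Subtype.ext
  apply RingHom.ext
  intro a
  obtain ⟨c, hc⟩ := psj_exists_sub_mem hres a
  have ha : a = (a - algebraMap 𝒪 R c) + algebraMap 𝒪 R c := by ring
  rw [ha, map_add, map_add, u.2 c, u'.2 c, hm _ (hs ▸ hc)]

/-- The dimension of the relative cotangent space is bounded by the number of tangent vectors. -/
theorem psj_finrank_le_of_card_le (hres : Function.Surjective (residue R ∘ algebraMap 𝒪 R))
    (r : ℕ) (h : Nat.card (TangentHom 𝒪 R) ≤ Nat.card (ResidueField 𝒪) ^ r) :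
    Module.finrank (ResidueField 𝒪) (TangentCot 𝒪 R) ≤ r := by
  have hA := psj_isResAlg hres
  haveI := psj_finite_tangentCot (𝒪 := 𝒪) (R := R) hres
  haveI := psj_finite_tangentHom (𝒪 := 𝒪) (R := R) hres
  have h1 : Nat.card (ResidueField 𝒪) ^ Module.finrank (ResidueField 𝒪) (TangentCot 𝒪 R) ≤
      Nat.card (ResidueField 𝒪) ^ r :=
    calc Nat.card (ResidueField 𝒪) ^ Module.finrank (ResidueField 𝒪) (TangentCot 𝒪 R)
        = Nat.card (ResidueField 𝒪) ^
          Module.finrank (ResidueField 𝒪) (Module.Dual (ResidueField 𝒪) (TangentCot 𝒪 R)) := by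
          rw [Subspace.dual_finrank_eq]
      _ = Nat.card (Module.Dual (ResidueField 𝒪) (TangentCot 𝒪 R)) :=
          Module.natCard_eq_pow_finrank.symm
      _ ≤ Nat.card (TangentHom 𝒪 R) :=
          Nat.card_le_card_of_injective _ (tangentOfDual_injective hA)
      _ ≤ Nat.card (ResidueField 𝒪) ^ r := h
  exact (Nat.pow_le_pow_iff_right Finite.one_lt_card).1 h1

variable [IsAdicComplete (maximalIdeal 𝒪) 𝒪] [IsAdicComplete (maximalIdeal R) R]

/-- **TW-alg, counting form.** If `R` has at most `|k| ^ r` tangent vectors `R → k[ε]`, then `R`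
is a quotient of `𝒪⟦X₁, …, X_r⟧`. -/
theorem psj_exists_surjective_of_card_le
    (hres : Function.Surjective (residue R ∘ algebraMap 𝒪 R)) (r : ℕ)
    (h : Nat.card (TangentHom 𝒪 R) ≤ Nat.card (ResidueField 𝒪) ^ r) :
    ∃ γ : MvPowerSeries (Fin r) 𝒪 →ₐ[𝒪] R, Function.Surjective γ :=
  psj_exists_surjective_of_finrank_le hres r (psj_finrank_le_of_card_le hres r h)

end Card

section Deformation

variable {𝒪 : Type} [CommRing 𝒪] [IsDomain 𝒪] [IsDiscreteValuationRing 𝒪]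
  [IsAdicComplete (maximalIdeal 𝒪) 𝒪] [Finite (ResidueField 𝒪)]

/-- **TW-alg for deformation rings.** A universal deformation ring with at most `|k| ^ r` tangent
vectors is a quotient of `𝒪⟦X₁, …, X_r⟧`. -/
theorem psj_deformationRing_of_card_le {ρbar : ResidualGaloisRep (ResidueField 𝒪)}
    {𝒟 : ∀ ⦃A : Type⦄ [CommRing A] [IsLocalRing A] [Algebra 𝒪 A], GaloisRepAdic A → Prop}
    (DQ : GaloisRep.DeformationRingData 𝒪 ρbar 𝒟) (r : ℕ)
    (h : Nat.card (TangentHom 𝒪 DQ.R) ≤ Nat.card (ResidueField 𝒪) ^ r) :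
    ∃ γ : MvPowerSeries (Fin r) 𝒪 →ₐ[𝒪] DQ.R, Function.Surjective γ :=
  psj_exists_surjective_of_card_le DQ.residue_surjective r h

/-- The same in terms of the dimension of the relative cotangent space. -/
theorem psj_deformationRing_of_finrank_le {ρbar : ResidualGaloisRep (ResidueField 𝒪)}
    {𝒟 : ∀ ⦃A : Type⦄ [CommRing A] [IsLocalRing A] [Algebra 𝒪 A], GaloisRepAdic A → Prop}
    (DQ : GaloisRep.DeformationRingData 𝒪 ρbar 𝒟) (r : ℕ)
    (h : Module.finrank (ResidueField 𝒪) (TangentCot 𝒪 DQ.R) ≤ r) :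
    ∃ γ : MvPowerSeries (Fin r) 𝒪 →ₐ[𝒪] DQ.R, Function.Surjective γ :=
  psj_exists_surjective_of_finrank_le DQ.residue_surjective r h

end Deformation

end Fermat.Agent.TW
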